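import Mathlib
import Fermat.Prelude.Def_EllipticCurve_FrobeniusTrace

/-!
# Existence of places and Frobenius elements in `Gal(ℚ̄/ℚ)`
-/

set_option autoImplicit false

namespace FLTAgent.Frobenius

open scoped Pointwise

local notation "QQb" => AlgebraicClosure ℚ
local notation "GG" => (AlgebraicClosure ℚ ≃ₐ[ℚ] AlgebraicClosure ℚ)
local notation "ZB" => integralClosure ℤ (AlgebraicClosure ℚ)

local instance isAlgebraicQQb : Algebra.IsAlgebraic ℚ (AlgebraicClosure ℚ) :=
  AlgebraicClosure.isAlgebraic ℚ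

local instance isAlgClosureQQb : IsAlgClosure ℚ (AlgebraicClosure ℚ) :=
  ⟨inferInstance, inferInstance⟩

local instance normalQQb : Normal ℚ (AlgebraicClosure ℚ) := IsAlgClosure.normal ℚ _

local instance isGaloisQQb : IsGalois ℚ (AlgebraicClosure ℚ) where

/-- Some valuation subring of `ℚ̄` lies over any prime. -/
theorem exists_liesOverPrime (ℓ : ℕ) (hℓ : ℓ.Prime) :
    ∃ A : ValuationSubring QQb, A.LiesOverPrime ℓ := by
  let B : Subring QQb := (ZB).toSubring
  let I : Ideal B := Ideal.span {(ℓ : B)}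
  have hI : I ≠ ⊤ := by
    rw [Ne, Ideal.span_singleton_eq_top, isUnit_iff_exists]
    rintro ⟨b, hb, -⟩
    have hb' : (b : QQb) = algebraMap ℚ QQb ((ℓ : ℚ)⁻¹) := by
      have h := congrArg (Subtype.val) hb
      simp only [Subring.coe_mul, Subring.coe_one] at h
      rw [map_inv₀, map_natCast]
      exact eq_inv_of_mul_eq_one_right (by simpa using h)
    have hint : IsIntegral ℤ ((ℓ : ℚ)⁻¹) :=
      (isIntegral_algebraMap_iff (algebraMap ℚ QQb).injective).mp (hb' ▸ b.2)
    obtain ⟨z, hz⟩ := IsIntegrallyClosed.isIntegral_iff.mp hint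
    have : (ℓ : ℤ) * z = 1 := by
      have hℓ0 : (ℓ : ℚ) ≠ 0 := by exact_mod_cast hℓ.ne_zero
      exact_mod_cast (show (ℓ : ℚ) * (z : ℚ) = 1 by
        rw [show (z : ℚ) = algebraMap ℤ ℚ z from rfl, hz, mul_inv_cancel₀ hℓ0])
    have := Int.eq_one_of_mul_eq_one_right (by positivity) this
    exact hℓ.ne_one (by exact_mod_cast this)
  obtain ⟨A, -, hA⟩ := Ideal.image_subset_nonunits_valuationSubring I hI
  exact ⟨A, hA ⟨(ℓ : B), Ideal.subset_span rfl, by simp⟩⟩

variable (V : ValuationSubring (AlgebraicClosure ℚ))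

lemma integralClosure_le (b : ZB) : (b : QQb) ∈ V := by
  have h : IsIntegral ℤ (b : QQb) := b.2
  have h' : IsIntegral V (b : QQb) := h.tower_top
  obtain ⟨v, hv⟩ := IsIntegrallyClosed.isIntegral_iff.mp h'
  exact hv ▸ v.2

/-- The prime of the ring of algebraic integers under a valuation subring. -/
noncomputable def centre : Ideal ZB :=
  (IsLocalRing.maximalIdeal V).comap
    ((ZB).val.toRingHom.codRestrict V.toSubring (integralClosure_le V))

instance : (centre V).IsPrime := Ideal.IsPrime.comap _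

lemma mem_centre_iff {b : ZB} : b ∈ centre V ↔ (b : QQb) ∈ V.nonunits := by
  rw [← SetLike.mem_coe (p := V.nonunits), ← ValuationSubring.image_maximalIdeal]
  constructor
  · intro h
    exact ⟨_, h, rfl⟩
  · rintro ⟨y, hy, hyb⟩
    have h : (ZB).val.toRingHom.codRestrict V.toSubring (integralClosure_le V) b = y :=
      Subtype.ext hyb.symm
    rw [centre, Ideal.mem_comap]
    exact (congrArg (· ∈ IsLocalRing.maximalIdeal V) h).mpr hy

/-- Every element of a valuation subring of `ℚ̄` is a quotient of algebraic integers with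
denominator outside the centre. -/
lemma exists_mul_eq {x : QQb} (hx : x ∈ V) :
    ∃ s b : ZB, s ∉ centre V ∧ (s : QQb) * x = b := by
  suffices H : ∀ (n : ℕ) (f : Polynomial ZB), f.natDegree ≤ n → Polynomial.aeval x f = 0 →
      (∃ i, f.coeff i ∉ centre V) → ∃ s b : ZB, s ∉ centre V ∧ (s : QQb) * x = b by
    obtain ⟨p, hp0, hp⟩ := Algebra.IsAlgebraic.isAlgebraic (R := ℚ) x
    obtain ⟨q, hq0, hq⟩ : ∃ q : Polynomial ℤ, q ≠ 0 ∧ Polynomial.aeval x q = 0 := by
      obtain ⟨q, hq0, hq⟩ := (IsFractionRing.isAlgebraic_iff ℤ ℚ QQb).mpr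
        (⟨p, hp0, hp⟩ : IsAlgebraic ℚ x)
      exact ⟨q, hq0, hq⟩
    refine H _ (q.primPart.map (algebraMap ℤ ZB)) le_rfl ?_ ?_
    · rw [Polynomial.aeval_map_algebraMap]
      exact (Polynomial.aeval_primPart_eq_zero hq0 hq : _)
    · by_contra hall
      push Not at hall
      have hP : ∀ i, q.primPart.coeff i ∈ (centre V).comap (algebraMap ℤ ZB) := fun i => by
        have := hall i
        rwa [Polynomial.coeff_map] at this
      have hprim := q.isPrimitive_primPart.content_eq_one
      obtain ⟨g, hg⟩ := (IsPrincipalIdealRing.principal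
        ((centre V).comap (algebraMap ℤ ZB))).principal
      have hdvd : g ∣ q.primPart.content := Polynomial.dvd_content_iff_C_dvd.mpr
        (Polynomial.C_dvd_iff_dvd_coeff _ _ |>.mpr fun i => by
          have := hP i
          rw [hg] at this
          exact Ideal.mem_span_singleton.mp this)
      rw [hprim] at hdvd
      have : (1 : ℤ) ∈ (centre V).comap (algebraMap ℤ ZB) := by
        rw [hg]; exact Ideal.mem_span_singleton.mpr hdvd
      rw [Ideal.mem_comap, map_one] at this
      exact (centre V).ne_top_iff_one.mp Ideal.IsPrime.ne_top' this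
  intro n
  induction n with
  | zero =>
    intro f hf hfx ⟨i, hi⟩
    obtain ⟨a, rfl⟩ := Polynomial.natDegree_eq_zero.mp (Nat.le_zero.mp hf)
    rw [Polynomial.aeval_C, map_eq_zero_iff _ (FaithfulSMul.algebraMap_injective ZB QQb)] at hfx
    simp [hfx] at hi
  | succ n ih =>
    intro f hf hfx hi
    rcases Nat.lt_or_eq_of_le hf with hlt | heq
    · exact ih f (Nat.lt_succ_iff.mp hlt) hfx hi
    · have hint : IsIntegral ℤ (f.leadingCoeff • x) :=
        isIntegral_trans (R := ℤ) _ (isIntegral_leadingCoeff_smul f x hfx)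
      let c : ZB := ⟨f.leadingCoeff • x, hint⟩
      have hc : (f.leadingCoeff : QQb) * x = (c : QQb) := rfl
      by_cases hlead : f.leadingCoeff ∈ centre V
      · have hcQ : c ∈ centre V := by
          rw [mem_centre_iff, ← hc, ← SetLike.mem_coe, ← ValuationSubring.image_maximalIdeal]
          rw [mem_centre_iff, ← SetLike.mem_coe, ← ValuationSubring.image_maximalIdeal] at hlead
          obtain ⟨y, hy, hy'⟩ := hlead
          exact ⟨y * ⟨x, hx⟩, Ideal.mul_mem_right _ _ hy, by
            rw [← hy']; rfl⟩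
        refine ih (f.eraseLead + Polynomial.C c * Polynomial.X ^ n) ?_ ?_ ?_
        · refine (Polynomial.natDegree_add_le _ _).trans (max_le ?_ ?_)
          · exact (Polynomial.eraseLead_natDegree_le f).trans (by rw [heq]; rfl)
          · exact Polynomial.natDegree_C_mul_X_pow_le _ _
        · have hsplit := Polynomial.eraseLead_add_C_mul_X_pow f
          rw [← hsplit, heq] at hfx
          simp only [map_add, map_mul, Polynomial.aeval_C, map_pow, Polynomial.aeval_X] at hfx ⊢
          rw [← hfx]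
          show _ + (c : QQb) * x ^ n = _ + (f.leadingCoeff : QQb) * x ^ (n + 1)
          rw [← hc, pow_succ']
          ring
        · by_contra hall
          push Not at hall
          obtain ⟨i, hi⟩ := hi
          refine hi ?_
          have h1 := hall i
          rw [← Polynomial.eraseLead_add_C_mul_X_pow f, Polynomial.coeff_add,
            Polynomial.coeff_C_mul_X_pow]
          rw [Polynomial.coeff_add, Polynomial.coeff_C_mul_X_pow] at h1
          have h2 : (if i = n then c else 0) ∈ centre V := by split_ifs <;> simp [hcQ]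
          have h3 : (if i = f.natDegree then f.leadingCoeff else 0) ∈ centre V := by
            split_ifs <;> simp [hlead]
          exact add_mem ((Submodule.add_mem_iff_left _ h2).mp h1) h3
      · exact ⟨f.leadingCoeff, c, hlead, hc⟩

noncomputable local instance : TopologicalSpace ZB := ⊥
local instance : DiscreteTopology ZB := ⟨rfl⟩

local instance : ContinuousSMul GG ZB := by
  rw [continuousSMul_iff_stabilizer_isOpen]
  intro b
  have : MulAction.stabilizer GG b = MulAction.stabilizer GG (b : QQb) := by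
    ext g
    simp only [MulAction.mem_stabilizer_iff, Subtype.ext_iff, integralClosure.coe_smul]
  rw [this]
  exact stabilizer_isOpen_of_isIntegral (b : QQb)

local instance : Algebra.IsInvariant ℤ ZB GG := ⟨fun b hb => by
  have hbot : (b : QQb) ∈ (⊥ : IntermediateField ℚ QQb) := by
    rw [InfiniteGalois.mem_bot_iff_fixed]
    intro g
    exact congrArg Subtype.val (hb g)
  obtain ⟨q, hq⟩ := IntermediateField.mem_bot.mp hbot
  have hint : IsIntegral ℤ q :=
    (isIntegral_algebraMap_iff (algebraMap ℚ QQb).injective).mp (hq ▸ b.2)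
  obtain ⟨z, hz⟩ := IsIntegrallyClosed.isIntegral_iff.mp hint
  refine ⟨z, Subtype.ext ?_⟩
  rw [Subalgebra.coe_algebraMap, ← hq, ← hz, ← IsScalarTower.algebraMap_apply]⟩

/-- Frobenius elements exist at every place of `ℚ̄`. -/
theorem exists_isFrobeniusAt (ℓ : ℕ) (hℓ : ℓ.Prime) (hV : V.LiesOverPrime ℓ) :
    ∃ σ : GG, V.IsFrobeniusAt σ ℓ := by
  let Q := centre V
  let P : Ideal ℤ := Q.under ℤ
  have : Q.LiesOver P := ⟨rfl⟩
  have hℓQ : (ℓ : ZB) ∈ Q := (mem_centre_iff V).mpr (by
    simpa [ValuationSubring.LiesOverPrime] using hV)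
  have : Fact ℓ.Prime := ⟨hℓ⟩
  have : CharP (ZB ⧸ Q) ℓ := by
    refine (CharP.charP_iff_prime_eq_zero hℓ).mpr ?_
    rw [← map_natCast (Ideal.Quotient.mk Q), Ideal.Quotient.eq_zero_iff_mem]
    exact hℓQ
  have hbij : Function.Bijective (frobenius (ZB ⧸ Q) ℓ) := by
    refine ⟨frobenius_inj _ _, fun y => ?_⟩
    obtain ⟨b, rfl⟩ := Ideal.Quotient.mk_surjective y
    obtain ⟨z, hz⟩ := IsAlgClosed.exists_pow_nat_eq (b : QQb) hℓ.pos
    have hzi : IsIntegral ℤ z := IsIntegral.of_pow hℓ.pos (hz ▸ b.2)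
    refine ⟨Ideal.Quotient.mk Q ⟨z, hzi⟩, ?_⟩
    rw [frobenius_def, ← map_pow]
    exact congrArg _ (Subtype.ext hz)
  let e : (ZB ⧸ Q) ≃ₐ[ℤ ⧸ P] (ZB ⧸ Q) :=
    AlgEquiv.ofRingEquiv (f := RingEquiv.ofBijective (frobenius (ZB ⧸ Q) ℓ) hbij) (by
      intro p
      obtain ⟨z, rfl⟩ := Ideal.Quotient.mk_surjective p
      exact DFunLike.congr_fun (RingHom.ext_int
        (((frobenius (ZB ⧸ Q) ℓ).comp (algebraMap (ℤ ⧸ P) _)).comp (Ideal.Quotient.mk P))
        ((algebraMap (ℤ ⧸ P) _).comp (Ideal.Quotient.mk P))) z)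
  obtain ⟨⟨σ, hσQ⟩, hσ⟩ := Ideal.Quotient.stabilizerHom_surjective_of_profinite (G := GG) P Q e
  have hcong : ∀ b : ZB, σ • b - b ^ ℓ ∈ Q := by
    intro b
    rw [← Ideal.Quotient.eq]
    have h := DFunLike.congr_fun hσ (Ideal.Quotient.mk Q b)
    simp only [e, AlgEquiv.ofRingEquiv_apply, RingEquiv.ofBijective_apply, frobenius_def] at h
    rw [map_pow, ← h]
    rfl
  -- the congruence extends to the valuation ring
  have key : ∀ (x : QQb) (hx : x ∈ V), ∃ h : σ x ∈ V, (⟨σ x, h⟩ : V) - ⟨x, hx⟩ ^ ℓ ∈ IsLocalRing.maximalIdeal V := by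
    intro x hx
    obtain ⟨s, b, hs, hsb⟩ := exists_mul_eq V hx
    have hs' : σ • s ∉ Q := by
      intro h
      exact hs (Ideal.IsPrime.mem_of_pow_mem inferInstance ℓ
        ((Submodule.sub_mem_iff_right _ h).mp (hcong s)))
    let ι := (ZB).val.toRingHom.codRestrict V.toSubring (integralClosure_le V)
    have hu : IsUnit (ι (σ • s)) := by
      by_contra h
      exact hs' h
    obtain ⟨u, hu⟩ := hu
    have hmul : σ (s : QQb) * σ x = σ (b : QQb) := by rw [← map_mul, hsb]
    have hval : σ x = (((↑u⁻¹ : V) * ι (σ • b) : V) : QQb) := by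
      have h1 : ((↑u : V) : QQb) = σ (s : QQb) := by rw [hu]; rfl
      have h2 : ((↑u⁻¹ : V) : QQb) * ((↑u : V) : QQb) = 1 := by
        rw [← MulMemClass.coe_mul, Units.inv_mul]; rfl
      calc σ x = ((↑u⁻¹ : V) : QQb) * ((↑u : V) : QQb) * σ x := by rw [h2, one_mul]
        _ = _ := by rw [h1, mul_assoc, hmul]; rfl
    have hwV : σ x ∈ V := hval ▸ SetLike.coe_mem _
    clear hval
    refine ⟨hwV, ?_⟩
    rw [← Ideal.unit_mul_mem_iff_mem _ u.isUnit]
    have e1 : (↑u : V) * ((⟨σ x, hwV⟩ : V) - ⟨x, hx⟩ ^ ℓ) =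
        (ι (σ • b) - ι (b ^ ℓ)) - ((ι (σ • s) - ι (s ^ ℓ)) * ⟨x, hx⟩ ^ ℓ) := by
      have hb : ι (σ • b) = ι (σ • s) * ⟨σ x, hwV⟩ := Subtype.ext hmul.symm
      have hb2 : ι (b ^ ℓ) = ι (s ^ ℓ) * ⟨x, hx⟩ ^ ℓ := by
        apply Subtype.ext
        show ((b : QQb)) ^ ℓ = (s : QQb) ^ ℓ * x ^ ℓ
        rw [← mul_pow, hsb]
      rw [hu, hb, hb2]
      ring
    have e2 : ∀ b : ZB, ι (σ • b) - ι (b ^ ℓ) ∈ IsLocalRing.maximalIdeal V := fun b => by
      rw [← map_sub]; exact hcong b
    rw [e1]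
    exact sub_mem (e2 b) (Ideal.mul_mem_right _ _ (e2 s))
  have hdec : σ ∈ V.decompositionSubgroup ℚ := by
    refine MulAction.mem_stabilizer_iff.mpr (SetLike.ext fun y => ?_)
    rw [ValuationSubring.mem_pointwise_smul_iff_inv_smul_mem]
    constructor
    · intro h
      obtain ⟨h', -⟩ := key _ h
      simpa using h'
    · intro hy
      by_contra hn
      have hinv : (σ⁻¹ • y)⁻¹ ∈ V.nonunits := V.inv_mem_nonunits_iff.mpr (Or.inr hn)
      rw [← SetLike.mem_coe, ← ValuationSubring.image_maximalIdeal] at hinv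
      obtain ⟨t, ht, htv⟩ := hinv
      obtain ⟨h', hm⟩ := key _ t.2
      have hm' : (⟨σ (t : QQb), h'⟩ : V) ∈ IsLocalRing.maximalIdeal V :=
        (Submodule.sub_mem_iff_left _ (Ideal.pow_mem_of_mem _ ht _ hℓ.pos)).mp hm
      have hσt : σ (t : QQb) = y⁻¹ := by
        rw [htv, map_inv₀]
        congr 1
        exact smul_inv_smul σ y
      have : y⁻¹ ∈ V.nonunits := by
        rw [← SetLike.mem_coe, ← ValuationSubring.image_maximalIdeal]
        exact ⟨_, hm', hσt⟩
      rcases V.inv_mem_nonunits_iff.mp this with h0 | h0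
      · exact hn (by simp [h0])
      · exact h0 hy
  refine ⟨σ, hdec, fun x => ?_⟩
  obtain ⟨x, rfl⟩ := IsLocalRing.residue_surjective x
  obtain ⟨h', hm⟩ := key _ x.2
  show IsLocalRing.residue V ((⟨σ, hdec⟩ : V.decompositionSubgroup ℚ) • x) = _
  rw [← map_pow, ← sub_eq_zero, ← map_sub, IsLocalRing.residue_eq_zero_iff]
  exact hm

end FLTAgent.Frobenius
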