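import Fermat.Agent.Frobenius.Density
import Fermat.Agent.Deformation.Bridge

/-!
# Galois representations are determined by their Frobenius characteristic polynomials
-/

set_option autoImplicit false

namespace FLTAgent.Frobenius

open NumberField Pointwise Polynomial FLTAgent.Deformation IsLocalRing

local notation "QQb" => AlgebraicClosure ℚ
local notation "GG" => (AlgebraicClosure ℚ ≃ₐ[ℚ] AlgebraicClosure ℚ)

section Place

variable (V : ValuationSubring (AlgebraicClosure ℚ))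

lemma nonunits_iff_inv {a : QQb} : a ∈ V.nonunits ↔ a⁻¹ = 0 ∨ a⁻¹ ∉ V := by
  conv_lhs => rw [← inv_inv a]
  exact V.inv_mem_nonunits_iff

lemma nonunits_iff_maximalIdeal {a : QQb} (ha : a ∈ V) :
    a ∈ V.nonunits ↔ (⟨a, ha⟩ : V) ∈ maximalIdeal V := by
  rw [← SetLike.mem_coe, ← ValuationSubring.image_maximalIdeal]
  exact ⟨fun ⟨y, hy, hya⟩ => by
    rwa [show (⟨a, ha⟩ : V) = y from Subtype.ext hya.symm], fun h => ⟨_, h, rfl⟩⟩

/-- Unfolded form of the Frobenius condition. -/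
theorem isFrobeniusAt_iff (τ : GG) (ℓ : ℕ) :
    V.IsFrobeniusAt τ ℓ ↔ τ • V = V ∧ ∀ x ∈ V, τ x - x ^ ℓ ∈ V.nonunits := by
  constructor
  · rintro ⟨hτ, h⟩
    refine ⟨hτ, fun x hx => ?_⟩
    have h1 := h (residue V ⟨x, hx⟩)
    have hτx : τ x ∈ V := SetLike.coe_mem ((⟨τ, hτ⟩ : V.decompositionSubgroup ℚ) • (⟨x, hx⟩ : V))
    rw [nonunits_iff_maximalIdeal V (sub_mem hτx (pow_mem hx ℓ))]
    rw [← residue_eq_zero_iff]
    change residue V ((⟨τ, hτ⟩ : V.decompositionSubgroup ℚ) • (⟨x, hx⟩ : V) - ⟨x, hx⟩ ^ ℓ) = 0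
    rw [map_sub, map_pow, sub_eq_zero, ← h1]
    rfl
  · rintro ⟨hτ, h⟩
    refine ⟨hτ, fun z => ?_⟩
    obtain ⟨⟨x, hx⟩, rfl⟩ := residue_surjective z
    have hτx : τ x ∈ V := SetLike.coe_mem ((⟨τ, hτ⟩ : V.decompositionSubgroup ℚ) • (⟨x, hx⟩ : V))
    have h1 := (nonunits_iff_maximalIdeal V (sub_mem hτx (pow_mem hx ℓ))).mp (h x hx)
    show residue V ((⟨τ, hτ⟩ : V.decompositionSubgroup ℚ) • (⟨x, hx⟩ : V)) = _
    rw [← map_pow, ← sub_eq_zero, ← map_sub, residue_eq_zero_iff]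
    exact h1

lemma smul_nonunits {γ : GG} {a : QQb} (ha : a ∈ V.nonunits) : γ a ∈ (γ • V).nonunits := by
  rw [nonunits_iff_inv] at ha ⊢
  rw [ValuationSubring.mem_pointwise_smul_iff_inv_smul_mem]
  have h : (γ a)⁻¹ = γ a⁻¹ := (map_inv₀ γ a).symm
  rw [h]
  rcases ha with h0 | h0
  · exact Or.inl (by rw [h0, map_zero])
  · refine Or.inr ?_
    rwa [show γ⁻¹ • γ a⁻¹ = a⁻¹ from inv_smul_smul γ a⁻¹]

lemma liesOverPrime_smul {γ : GG} {ℓ : ℕ} (h : V.LiesOverPrime ℓ) : (γ • V).LiesOverPrime ℓ := by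
  unfold ValuationSubring.LiesOverPrime at h ⊢
  simpa using smul_nonunits V (γ := γ) h

lemma isFrobeniusAt_conj {γ τ : GG} {ℓ : ℕ} (h : V.IsFrobeniusAt τ ℓ) :
    (γ • V).IsFrobeniusAt (γ * τ * γ⁻¹) ℓ := by
  obtain ⟨hτ, hx⟩ := (isFrobeniusAt_iff V τ ℓ).mp h
  refine (isFrobeniusAt_iff _ _ _).mpr ⟨?_, fun x hxV => ?_⟩
  · rw [mul_smul, mul_smul, inv_smul_smul, hτ]
  · rw [ValuationSubring.mem_pointwise_smul_iff_inv_smul_mem] at hxV
    have h1 := smul_nonunits V (γ := γ) (hx _ hxV)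
    rw [map_sub, map_pow] at h1
    rw [show γ (γ⁻¹ • x) = x from smul_inv_smul γ x] at h1
    exact h1

end Place

section Global

local instance isAlgebraicQQb' : Algebra.IsAlgebraic ℚ (AlgebraicClosure ℚ) :=
  AlgebraicClosure.isAlgebraic ℚ

local instance isAlgClosureQQb' : IsAlgClosure ℚ (AlgebraicClosure ℚ) :=
  ⟨inferInstance, inferInstance⟩

local instance normalQQb' : Normal ℚ (AlgebraicClosure ℚ) := IsAlgClosure.normal ℚ _

local instance isGaloisQQb' : IsGalois ℚ (AlgebraicClosure ℚ) where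

/-- Every automorphism of `ℚ̄` agrees on a given number field with a power of a Frobenius element at
a place outside a given finite set of primes. -/
theorem exists_frobenius_pow_eqOn (L : IntermediateField ℚ (AlgebraicClosure ℚ))
    [FiniteDimensional ℚ L] (σ : GG) (S : Finset ℕ) :
    ∃ (ℓ : ℕ) (V : ValuationSubring (AlgebraicClosure ℚ)) (τ : GG) (k : ℕ),
      ℓ.Prime ∧ ℓ ∉ S ∧ V.LiesOverPrime ℓ ∧ V.IsFrobeniusAt τ ℓ ∧ ∀ x ∈ L, σ x = (τ ^ k) x := by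
  let M := IntermediateField.normalClosure ℚ L (AlgebraicClosure ℚ)
  have : Normal ℚ M := normalClosure.normal ℚ L QQb
  have : IsGalois ℚ M := {}
  have : NumberField M := NumberField.mk
  let res : GG →* (M ≃ₐ[ℚ] M) := AlgEquiv.restrictNormalHom M
  have hres : ∀ (g : GG) (x : M), ((res g x : M) : QQb) = g (x : QQb) :=
    fun g x => AlgEquiv.restrictNormal_commutes g M x
  obtain ⟨ℓ, hℓ, hℓS, hun, Q, φ, k, hQ, hℓQ, hφ, hk⟩ := exists_frobenius_conj_pow (res σ) S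
  obtain ⟨V₀, hV₀⟩ := exists_liesOverPrime ℓ hℓ
  obtain ⟨τ₀, hτ₀⟩ := exists_isFrobeniusAt V₀ ℓ hℓ hV₀
  let ιM : 𝓞 M →+* integralClosure ℤ QQb :=
    RingHom.codRestrict ((algebraMap M QQb).comp (algebraMap (𝓞 M) M))
      (integralClosure ℤ QQb).toSubring
      (fun b => (RingOfIntegers.isIntegral_coe b).map (IsScalarTower.toAlgHom ℤ M QQb))
  let Q₀ : Ideal (𝓞 M) := (centre V₀).comap ιM
  have hQ₀ : Q₀.IsPrime := Ideal.IsPrime.comap _
  have hℓQ₀ : (ℓ : 𝓞 M) ∈ Q₀ := by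
    rw [Ideal.mem_comap, map_natCast, mem_centre_iff]
    simpa [ValuationSubring.LiesOverPrime] using hV₀
  have hφ₀ : IsFrobMod ℓ (res τ₀) Q₀ := by
    intro b
    rw [Ideal.mem_comap, mem_centre_iff]
    have h := ((isFrobeniusAt_iff V₀ τ₀ ℓ).mp hτ₀).2 _ (integralClosure_le V₀ (ιM b))
    show (((ιM (res τ₀ • b - b ^ ℓ)) : integralClosure ℤ QQb) : QQb) ∈ V₀.nonunits
    rw [map_sub, map_pow]
    have h2 : ((ιM (res τ₀ • b) : integralClosure ℤ QQb) : QQb) = τ₀ (ιM b : QQb) :=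
      hres τ₀ (b : M)
    push_cast
    rw [h2]
    exact h
  obtain ⟨g, hg⟩ := exists_smul_eq_of_mem hℓ hQ₀ hℓQ₀ hQ hℓQ
  obtain ⟨γ, hγ⟩ := AlgEquiv.restrictNormalHom_surjective (AlgebraicClosure ℚ) (F := ℚ) (K₁ := M) g
  have hγ' : res γ = g := hγ
  have hφeq : res (γ * τ₀ * γ⁻¹) = φ := by
    rw [map_mul, map_mul, map_inv, hγ']
    exact IsFrobMod.unique hℓ hun hQ hℓQ (hg ▸ hφ₀.conj g) hφ
  refine ⟨ℓ, γ • V₀, γ * τ₀ * γ⁻¹, k, hℓ, hℓS, liesOverPrime_smul V₀ hV₀,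
    isFrobeniusAt_conj V₀ hτ₀, fun x hx => ?_⟩
  have hxM : x ∈ M := IntermediateField.le_normalClosure L hx
  have h1 := congrArg (fun e : M ≃ₐ[ℚ] M => ((e ⟨x, hxM⟩ : M) : QQb)) hk
  simp only [← hφeq, ← map_pow, hres] at h1
  exact h1

lemma trace_pow_eq {R : Type} [CommRing R] {A B : M2 R} (ht : A.trace = B.trace)
    (hd : A.det = B.det) : ∀ k : ℕ, (A ^ k).trace = (B ^ k).trace := by
  have hrec : ∀ (C : M2 R) (k : ℕ),
      (C ^ (k + 2)).trace = C.trace * (C ^ (k + 1)).trace - C.det * (C ^ k).trace := by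
    intro C k
    have h : C * C = C.trace • C - C.det • 1 := by
      ext i j
      fin_cases i <;> fin_cases j <;>
        simp [Matrix.mul_apply, Fin.sum_univ_two, Matrix.trace_fin_two, Matrix.det_fin_two] <;> ring
    rw [show C ^ (k + 2) = C ^ k * (C * C) by rw [pow_add, pow_two], h, mul_sub, mul_smul_comm,
      mul_smul_comm, mul_one, ← pow_succ, Matrix.trace_sub, Matrix.trace_smul, Matrix.trace_smul]
    rfl
  intro k
  induction k using Nat.twoStepInduction with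
  | zero => simp
  | one => simpa using ht
  | more k h1 h2 => rw [hrec, hrec, ht, hd, h1, h2]

/-- Matrix representations of finite level with equal Frobenius characteristic polynomials
have equal characteristic polynomials everywhere. -/
theorem charpoly_eq_of_frobenius_matrix {R : Type} [CommRing R] (r r' : GG →* M2 R)
    (L : IntermediateField ℚ (AlgebraicClosure ℚ)) [FiniteDimensional ℚ L]
    (hL : ∀ σ : GG, (∀ x ∈ L, σ x = x) → r σ = 1 ∧ r' σ = 1) (S : Finset ℕ)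
    (h : ∀ ℓ : ℕ, ℓ.Prime → ℓ ∉ S → ∀ V : ValuationSubring (AlgebraicClosure ℚ),
      V.LiesOverPrime ℓ → ∀ τ : GG, V.IsFrobeniusAt τ ℓ → (r τ).charpoly = (r' τ).charpoly)
    (σ : GG) : (r σ).charpoly = (r' σ).charpoly := by
  obtain ⟨ℓ, V, τ, k, hℓ, hℓS, hV, hτ, hσ⟩ := exists_frobenius_pow_eqOn L σ S
  have hfix : ∀ x ∈ L, ((τ ^ k)⁻¹ * σ) x = x := by
    intro x hx
    rw [AlgEquiv.mul_apply, hσ x hx, ← AlgEquiv.mul_apply, inv_mul_cancel, AlgEquiv.one_apply]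
  obtain ⟨h1, h2⟩ := hL _ hfix
  have hσ1 : r σ = r τ ^ k := by
    rw [← map_pow, ← mul_inv_cancel_left (τ ^ k) σ, map_mul, h1, mul_one]
  have hσ2 : r' σ = r' τ ^ k := by
    rw [← map_pow, ← mul_inv_cancel_left (τ ^ k) σ, map_mul, h2, mul_one]
  rcases subsingleton_or_nontrivial R with hR | hR
  · exact Subsingleton.elim _ _
  have hc := h ℓ hℓ hℓS V hV τ hτ
  have ht : (r τ).trace = (r' τ).trace := by
    rw [Matrix.trace_eq_neg_charpoly_coeff, Matrix.trace_eq_neg_charpoly_coeff, hc]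
  have hd : (r τ).det = (r' τ).det := by
    rw [Matrix.det_eq_sign_charpoly_coeff, Matrix.det_eq_sign_charpoly_coeff, hc]
  rw [hσ1, hσ2, Matrix.charpoly_fin_two, Matrix.charpoly_fin_two, trace_pow_eq ht hd k,
    Matrix.det_pow, Matrix.det_pow, hd]

variable {A : Type} [CommRing A] [IsLocalRing A]

lemma charpoly_eq_charpoly_matOf (ρ : GaloisRepAdic A) (b : Module.Basis (Fin 2) A ρ.V) (σ : GG) :
    LinearMap.charpoly (ρ.ρ σ) = (matOf ρ b σ).charpoly :=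
  (LinearMap.charpoly_toMatrix (ρ.ρ σ) b).symm

/-- Continuous two-dimensional representations over a separated local ring with equal Frobenius
characteristic polynomials outside a finite set have equal characteristic polynomials. -/
theorem charpoly_eq_of_frobenius [IsHausdorff (maximalIdeal A) A] (ρ₁ ρ₂ : GaloisRepAdic A)
    (S : Finset ℕ)
    (h : ∀ ℓ : ℕ, ℓ.Prime → ℓ ∉ S → ∀ V : ValuationSubring (AlgebraicClosure ℚ),
      V.LiesOverPrime ℓ → ∀ τ : GG, V.IsFrobeniusAt τ ℓ →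
        LinearMap.charpoly (ρ₁.ρ τ) = LinearMap.charpoly (ρ₂.ρ τ))
    (σ : GG) : LinearMap.charpoly (ρ₁.ρ σ) = LinearMap.charpoly (ρ₂.ρ σ) := by
  obtain ⟨b₁⟩ := nonempty_basis ρ₁
  obtain ⟨b₂⟩ := nonempty_basis ρ₂
  rw [charpoly_eq_charpoly_matOf ρ₁ b₁, charpoly_eq_charpoly_matOf ρ₂ b₂]
  refine Polynomial.ext fun i => sub_eq_zero.mp (IsHausdorff.haus ‹_› _ fun n => ?_)
  rw [SModEq.sub_mem, smul_eq_mul, Ideal.mul_top, sub_zero, ← Ideal.Quotient.eq_zero_iff_mem,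
    map_sub, sub_eq_zero, ← Polynomial.coeff_map, ← Polynomial.coeff_map]
  let π := Ideal.Quotient.mk (maximalIdeal A ^ n)
  obtain ⟨L₁, hL₁, h₁⟩ := matCts_matOf ρ₁ b₁ n
  obtain ⟨L₂, hL₂, h₂⟩ := matCts_matOf ρ₂ b₂ n
  rw [← Matrix.charpoly_map, ← Matrix.charpoly_map]
  refine congrArg (fun p => Polynomial.coeff p i) ?_
  have := hL₁; have := hL₂
  have hone : ∀ (r : GG →* M2 A) (τ : GG), (∀ i j, (r τ - 1) i j ∈ maximalIdeal A ^ n) →
      mapMat π r τ = 1 := by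
    intro r τ hr
    rw [mapMat_apply, ← Matrix.map_one π (map_zero π) (map_one π)]
    ext i j
    rw [Matrix.map_apply, Matrix.map_apply, Ideal.Quotient.eq, ← Matrix.sub_apply]
    exact hr i j
  refine charpoly_eq_of_frobenius_matrix (mapMat π (matOf ρ₁ b₁)) (mapMat π (matOf ρ₂ b₂))
    (L₁ ⊔ L₂) (fun τ hτ => ⟨hone _ τ (h₁ τ fun x hx => hτ x ((le_sup_left : L₁ ≤ L₁ ⊔ L₂) hx)),
      hone _ τ (h₂ τ fun x hx => hτ x ((le_sup_right : L₂ ≤ L₁ ⊔ L₂) hx))⟩) S ?_ σ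
  intro ℓ hℓ hℓS V hV τ hτ
  show ((matOf ρ₁ b₁ τ).map π).charpoly = ((matOf ρ₂ b₂ τ).map π).charpoly
  rw [Matrix.charpoly_map, Matrix.charpoly_map, ← charpoly_eq_charpoly_matOf,
    ← charpoly_eq_charpoly_matOf, h ℓ hℓ hℓS V hV τ hτ]

/-- Equal traces and an absolutely irreducible reduction give an isomorphism. -/
theorem isEquiv_of_trace_eq (ρ₁ ρ₂ : GaloisRepAdic A)
    (habs : ρ₁.residual.IsAbsolutelyIrreducible) (h : ∀ σ, ρ₁.trace σ = ρ₂.trace σ) :
    ρ₁.IsEquiv ρ₂ := by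
  obtain ⟨b₁⟩ := nonempty_basis ρ₁
  obtain ⟨b₂⟩ := nonempty_basis ρ₂
  let bb : Module.Basis (Fin 2) (ResidueField A) ρ₁.residual.V :=
    Algebra.TensorProduct.basis (ResidueField A) b₁
  have hspan : SpansResidue (matOf ρ₁ b₁) := by
    have h1 := span_resMat_eq_top ρ₁.residual bb habs
    have h2 : (fun σ => (matOf ρ₁ b₁ σ).map (residue A)) = resMat ρ₁.residual bb := by
      funext σ
      ext i j
      rw [Matrix.map_apply, matOf_apply]
      show _ = LinearMap.toMatrixAlgEquiv bb (ρ₁.residual.ρ σ) i j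
      rw [LinearMap.toMatrixAlgEquiv_apply]
      show _ = (Algebra.TensorProduct.basis (ResidueField A) b₁).repr ((ρ₁.ρ σ).baseChange
        (ResidueField A) (Algebra.TensorProduct.basis (ResidueField A) b₁ j)) i
      rw [Algebra.TensorProduct.basis_apply, LinearMap.baseChange_tmul,
        Algebra.TensorProduct.basis_repr_tmul]
      simp [ResidueField.algebraMap_eq]
    rw [SpansResidue, h2]
    exact h1
  obtain ⟨P, hP, hconj⟩ := exists_conj_of_trace_eq' _ (matOf ρ₂ b₂) hspan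
    (fun σ => by rw [trace_matOf, trace_matOf, h])
  exact isEquiv_trans (isEquiv_symm (isEquiv_repOfMatrix ρ₁ b₁ _ (matCts_matOf ρ₁ b₁) fun _ => rfl))
    (isEquiv_trans (isEquiv_repOfMatrix_of_conj _ (matCts_matOf ρ₂ b₂) hP hconj)
      (isEquiv_repOfMatrix ρ₂ b₂ _ _ fun _ => rfl))

/-- Continuous representations with absolutely irreducible reduction and equal Frobenius
characteristic polynomials outside a finite set are isomorphic. -/
theorem isEquiv_of_frobenius [IsHausdorff (maximalIdeal A) A] (ρ₁ ρ₂ : GaloisRepAdic A)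
    (habs : ρ₁.residual.IsAbsolutelyIrreducible) (S : Finset ℕ)
    (h : ∀ ℓ : ℕ, ℓ.Prime → ℓ ∉ S → ∀ V : ValuationSubring (AlgebraicClosure ℚ),
      V.LiesOverPrime ℓ → ∀ τ : GG, V.IsFrobeniusAt τ ℓ →
        LinearMap.charpoly (ρ₁.ρ τ) = LinearMap.charpoly (ρ₂.ρ τ)) :
    ρ₁.IsEquiv ρ₂ := by
  refine isEquiv_of_trace_eq ρ₁ ρ₂ habs fun σ => ?_
  obtain ⟨b₁⟩ := nonempty_basis ρ₁
  obtain ⟨b₂⟩ := nonempty_basis ρ₂
  rw [← trace_matOf ρ₁ b₁, ← trace_matOf ρ₂ b₂, Matrix.trace_eq_neg_charpoly_coeff,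
    Matrix.trace_eq_neg_charpoly_coeff, ← charpoly_eq_charpoly_matOf, ← charpoly_eq_charpoly_matOf,
    charpoly_eq_of_frobenius ρ₁ ρ₂ S h σ]

variable {k : Type} [Field k]

/-- Residual representations with equal Frobenius characteristic polynomials outside a finite set
have equal characteristic polynomials. -/
theorem residual_charpoly_eq_of_frobenius (ρ₁ ρ₂ : ResidualGaloisRep k) (S : Finset ℕ)
    (h : ∀ ℓ : ℕ, ℓ.Prime → ℓ ∉ S → ∀ V : ValuationSubring (AlgebraicClosure ℚ),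
      V.LiesOverPrime ℓ → ∀ τ : GG, V.IsFrobeniusAt τ ℓ →
        LinearMap.charpoly (ρ₁.ρ τ) = LinearMap.charpoly (ρ₂.ρ τ))
    (σ : GG) : LinearMap.charpoly (ρ₁.ρ σ) = LinearMap.charpoly (ρ₂.ρ σ) := by
  let b₁ := Module.finBasisOfFinrankEq k ρ₁.V ρ₁.finrank_eq
  let b₂ := Module.finBasisOfFinrankEq k ρ₂.V ρ₂.finrank_eq
  have hb : ∀ (ρ : ResidualGaloisRep k) (b : Module.Basis (Fin 2) k ρ.V) (τ : GG),
      LinearMap.charpoly (ρ.ρ τ) = (resMat ρ b τ).charpoly :=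
    fun ρ b τ => (LinearMap.charpoly_toMatrix (ρ.ρ τ) b).symm
  obtain ⟨L₁, hL₁, h₁⟩ := ρ₁.factorsThroughFiniteLevel
  obtain ⟨L₂, hL₂, h₂⟩ := ρ₂.factorsThroughFiniteLevel
  have := hL₁; have := hL₂
  rw [hb ρ₁ b₁, hb ρ₂ b₂]
  refine charpoly_eq_of_frobenius_matrix _ _ (L₁ ⊔ L₂) (fun τ hτ => ⟨?_, ?_⟩) S
    (fun ℓ hℓ hℓS V hV τ hτ => by rw [← hb, ← hb]; exact h ℓ hℓ hℓS V hV τ hτ) σ
  · show LinearMap.toMatrixAlgEquiv b₁ (ρ₁.ρ τ) = 1
    rw [h₁ τ fun x hx => hτ x ((le_sup_left : L₁ ≤ L₁ ⊔ L₂) hx), map_one]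
  · show LinearMap.toMatrixAlgEquiv b₂ (ρ₂.ρ τ) = 1
    rw [h₂ τ fun x hx => hτ x ((le_sup_right : L₂ ≤ L₁ ⊔ L₂) hx), map_one]

/-- Brauer–Nesbitt for residual representations. -/
theorem residual_isEquiv_of_frobenius (ρ₁ ρ₂ : ResidualGaloisRep k)
    (habs : ρ₁.IsAbsolutelyIrreducible) (S : Finset ℕ)
    (h : ∀ ℓ : ℕ, ℓ.Prime → ℓ ∉ S → ∀ V : ValuationSubring (AlgebraicClosure ℚ),
      V.LiesOverPrime ℓ → ∀ τ : GG, V.IsFrobeniusAt τ ℓ →
        LinearMap.charpoly (ρ₁.ρ τ) = LinearMap.charpoly (ρ₂.ρ τ)) :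
    ρ₁.IsEquiv ρ₂ := by
  let b₁ := Module.finBasisOfFinrankEq k ρ₁.V ρ₁.finrank_eq
  let b₂ := Module.finBasisOfFinrankEq k ρ₂.V ρ₂.finrank_eq
  have htr : ∀ σ, Matrix.trace (resMat ρ₁ b₁ σ) = Matrix.trace (resMat ρ₂ b₂ σ) := fun σ => by
    rw [Matrix.trace_eq_neg_charpoly_coeff, Matrix.trace_eq_neg_charpoly_coeff]
    show -((LinearMap.toMatrix b₁ b₁ (ρ₁.ρ σ)).charpoly.coeff _) =
      -((LinearMap.toMatrix b₂ b₂ (ρ₂.ρ σ)).charpoly.coeff _)
    rw [LinearMap.charpoly_toMatrix, LinearMap.charpoly_toMatrix,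
      residual_charpoly_eq_of_frobenius ρ₁ ρ₂ S h σ]
  have hspan : SpansResidue (resMat ρ₁ b₁) := by
    have hmap : ∀ z ∈ Submodule.span k (Set.range (resMat ρ₁ b₁)), z.map (residue k) ∈
        Submodule.span (ResidueField k)
          (Set.range fun σ => (resMat ρ₁ b₁ σ).map (residue k)) := by
      intro z hz
      induction hz using Submodule.span_induction with
      | mem _ hx => obtain ⟨σ, rfl⟩ := hx; exact Submodule.subset_span ⟨σ, rfl⟩
      | zero => simp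
      | add _ _ _ _ hu hv =>
        rw [Matrix.map_add _ (map_add (residue k))]; exact add_mem hu hv
      | smul c u _ hu =>
        have : (c • u).map (residue k) = residue k c • u.map (residue k) := by ext i j; simp
        rw [this]; exact Submodule.smul_mem _ _ hu
    refine top_le_iff.mp fun y _ => ?_
    have hinv : y = (y.map (Function.surjInv residue_surjective)).map (residue k) := by
      ext i j
      simp [Function.surjInv_eq residue_surjective]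
    rw [hinv]
    exact hmap _ (span_resMat_eq_top ρ₁ b₁ habs ▸ trivial)
  obtain ⟨P, ⟨u, rfl⟩, hconj⟩ := exists_conj_of_trace_eq' _ _ hspan htr
  let e₀ : (Fin 2 → k) ≃ₗ[k] (Fin 2 → k) :=
    LinearEquiv.ofLinearMap (Matrix.toLin' (u : M2 k)) (Matrix.toLin' (↑u⁻¹ : M2 k))
      (by rw [← Matrix.toLin'_mul, Units.mul_inv, Matrix.toLin'_one])
      (by rw [← Matrix.toLin'_mul, Units.inv_mul, Matrix.toLin'_one])
  let e : ρ₁.V ≃ₗ[k] ρ₂.V := (b₁.equivFun.trans e₀).trans b₂.equivFun.symm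
  refine ⟨⟨e, fun σ x => b₂.equivFun.injective ?_⟩⟩
  have he : ∀ z, b₂.equivFun (e z) = (u : M2 k).mulVec (b₁.equivFun z) := fun z => by
    simp only [e, LinearEquiv.trans_apply, LinearEquiv.apply_symm_apply]
    rfl
  have hr : ∀ (ρ : ResidualGaloisRep k) (b : Module.Basis (Fin 2) k ρ.V) (z : ρ.V),
      b.equivFun (ρ.ρ σ z) = (resMat ρ b σ).mulVec (b.equivFun z) := fun ρ b z =>
    (LinearMap.toMatrix_mulVec_repr b b (ρ.ρ σ) z).symm
  rw [he, hr, hr, he, Matrix.mulVec_mulVec, Matrix.mulVec_mulVec, hconj σ]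

end Global

end FLTAgent.Frobenius
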