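import Fermat.Agent.Frobenius.DegreeOne
import Fermat.Agent.Frobenius.Exists

/-!
# Weak Chebotarev theorem

In a finite Galois extension of `ℚ` every automorphism is conjugate to a power of Frobenius
elements at infinitely many primes (in fact to a Frobenius generating the same subgroup).
-/

set_option autoImplicit false

namespace FLTAgent.Frobenius

open NumberField Filter Topology Pointwise

section Group

variable {G : Type} [Group G]

/-- The cyclic subgroups generated by `g` and `h` are conjugate. -/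
def SameDivision (g h : G) : Prop :=
  ∃ x : G, Subgroup.zpowers (x * g * x⁻¹) = Subgroup.zpowers h

lemma SameDivision.refl (g : G) : SameDivision g g := ⟨1, by simp⟩

lemma zpowers_conj_eq {x g g' : G} (h : Subgroup.zpowers g = Subgroup.zpowers g') :
    Subgroup.zpowers (x * g * x⁻¹) = Subgroup.zpowers (x * g' * x⁻¹) := by
  have h1 : ∀ a : G, Subgroup.zpowers (x * a * x⁻¹) =
      (Subgroup.zpowers a).map (MulAut.conj x).toMonoidHom := fun a => by
    rw [MonoidHom.map_zpowers]
    rfl
  rw [h1, h1, h]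

lemma SameDivision.symm {g h : G} (hgh : SameDivision g h) : SameDivision h g := by
  obtain ⟨x, hx⟩ := hgh
  refine ⟨x⁻¹, ?_⟩
  have := zpowers_conj_eq (x := x⁻¹) hx
  simpa [mul_assoc] using this.symm

lemma SameDivision.trans {g h k : G} (h1 : SameDivision g h) (h2 : SameDivision h k) :
    SameDivision g k := by
  obtain ⟨x, hx⟩ := h1
  obtain ⟨y, hy⟩ := h2
  refine ⟨y * x, ?_⟩
  rw [← hy]
  have := zpowers_conj_eq (x := y) hx
  rw [← this]
  congr 1
  group

lemma SameDivision.orderOf_eq {g h : G} (hgh : SameDivision g h) : orderOf g = orderOf h := by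
  obtain ⟨x, hx⟩ := hgh
  rw [← Nat.card_zpowers g, ← Nat.card_zpowers h, ← hx,
    show x * g * x⁻¹ = MulAut.conj x g from rfl, Nat.card_zpowers, Nat.card_zpowers]
  exact (MulEquiv.orderOf_eq (MulAut.conj x) g).symm

lemma card_fixed_eq_of_sameDivision {X : Type} [MulAction G X] {g h : G}
    (hgh : SameDivision g h) :
    Nat.card {c : X // g • c = c} = Nat.card {c : X // h • c = c} := by
  obtain ⟨x, hx⟩ := hgh
  have key : ∀ (a b : G), Subgroup.zpowers a = Subgroup.zpowers b → ∀ c : X, a • c = c ↔ b • c = c := by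
    intro a b hab c
    rw [← MulAction.mem_stabilizer_iff, ← MulAction.mem_stabilizer_iff, ← Subgroup.zpowers_le,
      ← Subgroup.zpowers_le, hab]
  refine Nat.card_congr
    ((MulAction.toPerm x).subtypeEquiv fun c => ?_)
  rw [MulAction.toPerm_apply, ← key _ _ hx, mul_smul, mul_smul, inv_smul_smul, smul_left_cancel_iff]

end Group

variable {L : Type} [Field L] [NumberField L] [IsGalois ℚ L]

local notation "GL" => (L ≃ₐ[ℚ] L)

/-- A function of Frobenius has the expected logarithmic Dirichlet series. -/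
def HasFrobAverage (frob : Nat.Primes → L ≃ₐ[ℚ] L) (f : (L ≃ₐ[ℚ] L) → ℝ) : Prop :=
  ∃ C : ℝ, ∀ᶠ s in 𝓝[>] (1 : ℝ),
    |(∑' p : Nat.Primes, f (frob p) * (p : ℝ) ^ (-s)) +
      ((∑ g, f g) / Nat.card (L ≃ₐ[ℚ] L)) * Real.log (s - 1)| ≤ C

omit [IsGalois ℚ L] in
lemma summable_comp_frob (frob : Nat.Primes → GL) (f : GL → ℝ) {s : ℝ} (hs : 1 < s) :
    Summable fun p : Nat.Primes => f (frob p) * (p : ℝ) ^ (-s) := by
  refine Summable.of_norm_bounded ((summable_primes_rpow hs).mul_left (∑ g, |f g|)) fun p => ?_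
  rw [norm_mul, Real.norm_eq_abs, Real.norm_eq_abs,
    abs_of_nonneg (Real.rpow_nonneg (Nat.cast_nonneg _) _)]
  exact mul_le_mul_of_nonneg_right
    (Finset.single_le_sum (f := fun g => |f g|) (fun g _ => abs_nonneg _) (Finset.mem_univ _))
    (Real.rpow_nonneg (Nat.cast_nonneg _) _)

omit [IsGalois ℚ L] in
lemma HasFrobAverage.add_smul {frob : Nat.Primes → GL} {f f' : GL → ℝ}
    (h : HasFrobAverage frob f) (h' : HasFrobAverage frob f') (a : ℝ) :
    HasFrobAverage frob (fun g => f g + a * f' g) := by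
  obtain ⟨C, hC⟩ := h
  obtain ⟨C', hC'⟩ := h'
  refine ⟨C + |a| * C', ?_⟩
  filter_upwards [hC, hC', self_mem_nhdsWithin] with s h1 h2 hs
  simp only [Set.mem_Ioi] at hs
  have hsum := (summable_comp_frob frob f hs).tsum_add ((summable_comp_frob frob f' hs).mul_left a)
  rw [tsum_mul_left] at hsum
  have hfun : (fun p : Nat.Primes => (f (frob p) + a * f' (frob p)) * (p : ℝ) ^ (-s)) =
      fun p : Nat.Primes => f (frob p) * (p : ℝ) ^ (-s) + a * (f' (frob p) * (p : ℝ) ^ (-s)) := by
    funext p; ring
  have hid : (∑' p : Nat.Primes, (f (frob p) + a * f' (frob p)) * (p : ℝ) ^ (-s)) +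
      ((∑ g, (f g + a * f' g)) / Nat.card GL) * Real.log (s - 1) =
      ((∑' p : Nat.Primes, f (frob p) * (p : ℝ) ^ (-s)) +
        ((∑ g, f g) / Nat.card GL) * Real.log (s - 1)) +
      a * ((∑' p : Nat.Primes, f' (frob p) * (p : ℝ) ^ (-s)) +
        ((∑ g, f' g) / Nat.card GL) * Real.log (s - 1)) := by
    rw [hfun, hsum, Finset.sum_add_distrib, ← Finset.mul_sum]
    ring
  rw [hid]
  refine (abs_add_le _ _).trans (add_le_add h1 ?_)
  rw [abs_mul]
  exact mul_le_mul_of_nonneg_left h2 (abs_nonneg a)

omit [IsGalois ℚ L] in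
lemma HasFrobAverage.zero {frob : Nat.Primes → GL} : HasFrobAverage frob (fun _ => 0) :=
  ⟨0, by simp⟩

lemma hasFrobAverage_fix {frob : Nat.Primes → GL} (bad : Finset Nat.Primes)
    (hfrob : ∀ p ∉ bad, InertiaTrivial L p ∧
      ∃ Q : Ideal (𝓞 L), Q.IsPrime ∧ ((p : ℕ) : 𝓞 L) ∈ Q ∧ IsFrobMod p (frob p) Q)
    (H : Subgroup GL) :
    HasFrobAverage frob (fun g => (Nat.card {c : GL ⧸ H // g • c = c} : ℝ)) := by
  classical
  set K := IntermediateField.fixedField H
  set f : GL → ℝ := fun g => (Nat.card {c : GL ⧸ H // g • c = c} : ℝ) with hf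
  obtain ⟨C, hC⟩ := degreeOne_sum_asymptotic K
  refine ⟨C + ∑ p ∈ bad, |f (frob p) - idealCount K p|, ?_⟩
  filter_upwards [hC, self_mem_nhdsWithin] with s h1 hs
  simp only [Set.mem_Ioi] at hs
  have havg : (∑ g, f g) / Nat.card GL = 1 := by
    have : Fintype (GL ⧸ H) := Fintype.ofFinite _
    have hub : (∑ g : GL, Fintype.card (MulAction.fixedBy (GL ⧸ H) g)) =
        Fintype.card (Quotient (MulAction.orbitRel GL (GL ⧸ H))) * Fintype.card GL :=
      MulAction.sum_card_fixedBy_eq_card_orbits_mul_card_group GL (GL ⧸ H)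
    have hone : Fintype.card (Quotient (MulAction.orbitRel GL (GL ⧸ H))) = 1 := by
      rw [Fintype.card_eq_one_iff]
      refine ⟨Quotient.mk'' (QuotientGroup.mk 1), fun q => ?_⟩
      obtain ⟨c, rfl⟩ := Quotient.exists_rep q
      exact Quotient.sound (MulAction.exists_smul_eq GL _ c)
    rw [hone, one_mul] at hub
    have hsum : (∑ g, f g) = (Fintype.card GL : ℝ) := by
      rw [← hub, Nat.cast_sum]
      refine Finset.sum_congr rfl fun g _ => ?_
      rw [hf, ← Nat.card_eq_fintype_card]
      rfl
    rw [hsum, Nat.card_eq_fintype_card, div_self]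
    exact_mod_cast Fintype.card_ne_zero
  rw [havg, one_mul]
  have hA := summable_comp_frob frob f hs
  have hB := summable_idealCount_primes K hs
  have hfin : |(∑' p : Nat.Primes, f (frob p) * (p : ℝ) ^ (-s)) -
      ∑' p : Nat.Primes, (idealCount K p : ℝ) * (p : ℝ) ^ (-s)| ≤
      ∑ p ∈ bad, |f (frob p) - idealCount K p| := by
    rw [← hA.tsum_sub hB, tsum_eq_sum (s := bad) fun p hp => ?_]
    · refine (Finset.abs_sum_le_sum_abs _ _).trans (Finset.sum_le_sum fun p _ => ?_)
      rw [← sub_mul, abs_mul, abs_of_nonneg (Real.rpow_nonneg (Nat.cast_nonneg _) _)]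
      refine mul_le_of_le_one_right (abs_nonneg _) ?_
      exact Real.rpow_le_one_of_one_le_of_nonpos (by exact_mod_cast p.2.one_lt.le) (by linarith)
    · obtain ⟨hun, Q, hQ, hpQ, hφ⟩ := hfrob p hp
      rw [idealCount_fixedField H p.2 hun hQ hpQ hφ]
      simp [hf]
  rw [abs_le] at h1 hfin ⊢
  constructor <;> linarith [h1.1, h1.2, hfin.1, hfin.2]

lemma hasFrobAverage_of_division {frob : Nat.Primes → GL}
    (hfix : ∀ H : Subgroup GL,
      HasFrobAverage frob (fun g => (Nat.card {c : GL ⧸ H // g • c = c} : ℝ))) :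
    ∀ (m : ℕ) (f : GL → ℝ), (∀ g, m ≤ orderOf g → f g = 0) →
      (∀ g h, SameDivision g h → f g = f h) → HasFrobAverage frob f := by
  classical
  intro m
  induction m with
  | zero =>
    intro f hf _
    have : f = fun _ => 0 := funext fun g => hf g (Nat.zero_le _)
    exact this ▸ HasFrobAverage.zero
  | succ m ih =>
    intro f hf hinv
    have hdelta : ∀ g : GL, orderOf g = m →
        HasFrobAverage frob (fun h => if SameDivision g h then (1 : ℝ) else 0) := by
      intro g hg
      set C := Subgroup.zpowers g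
      set F : GL → ℝ := fun h => (Nat.card {c : GL ⧸ C // h • c = c} : ℝ) with hF
      have hlow : HasFrobAverage frob (fun h => if orderOf h < m then F h else 0) := by
        refine ih _ (fun h hh => by simp [Nat.not_lt.mpr hh]) fun a b hab => ?_
        simp only [hab.orderOf_eq, hF, card_fixed_eq_of_sameDivision (X := GL ⧸ C) hab]
      have hpos : 0 < F g := by
        have : Nonempty {c : GL ⧸ C // g • c = c} := ⟨⟨QuotientGroup.mk 1, by
          rw [MulAction.Quotient.smul_mk, eq_comm, QuotientGroup.eq]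
          simp [C]⟩⟩
        have : 0 < Nat.card {c : GL ⧸ C // g • c = c} := Nat.card_pos
        show (0 : ℝ) < ((Nat.card {c : GL ⧸ C // g • c = c} : ℕ) : ℝ)
        exact Nat.cast_pos.mpr this
      have hcomb : (fun h => if SameDivision g h then (1 : ℝ) else 0) = fun h =>
          0 + (F g)⁻¹ * (F h + (-1) * (if orderOf h < m then F h else 0)) := by
        funext h
        by_cases hd : SameDivision g h
        · have h1 : F h = F g := by
            simp only [hF, card_fixed_eq_of_sameDivision (X := GL ⧸ C) hd]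
          simp [hd, ← hd.orderOf_eq, hg, h1, inv_mul_cancel₀ hpos.ne']
        · rw [if_neg hd]
          by_cases hlt : orderOf h < m
          · simp [hlt]
          · have h0 : F h = 0 := by
              rw [hF, Nat.cast_eq_zero, Nat.card_eq_zero]
              refine Or.inl ⟨fun ⟨c, hc⟩ => hd ?_⟩
              obtain ⟨x, rfl⟩ := QuotientGroup.mk_surjective c
              rw [MulAction.Quotient.smul_mk, eq_comm, QuotientGroup.eq] at hc
              have hmem : x⁻¹ * h * x ∈ C := by simpa [mul_assoc] using hc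
              have hle : Subgroup.zpowers (x⁻¹ * h * x) ≤ C := Subgroup.zpowers_le.mpr hmem
              have hcard : Nat.card C ≤ Nat.card (Subgroup.zpowers (x⁻¹ * h * x)) := by
                rw [Nat.card_zpowers, Nat.card_zpowers, hg,
                  show x⁻¹ * h * x = MulAut.conj x⁻¹ h by simp,
                  MulEquiv.orderOf_eq]
                exact Nat.not_lt.mp hlt
              have heq := Subgroup.eq_of_le_of_card_ge hle hcard
              exact SameDivision.symm ⟨x⁻¹, by simpa using heq⟩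
            simp [hlt, h0]
      rw [hcomb]
      exact HasFrobAverage.zero.add_smul ((hfix C).add_smul hlow (-1)) _
    let T : Finset GL := Finset.univ.filter fun g => orderOf g = m
    let c : GL → ℝ := fun g => f g / (T.filter fun h => SameDivision g h).card
    have hsplit : f = fun h => (if orderOf h < m then f h else 0) +
        1 * ∑ g ∈ T, c g * (if SameDivision g h then (1 : ℝ) else 0) := by
      funext h
      rcases lt_trichotomy (orderOf h) m with hlt | heq | hgt
      · rw [if_pos hlt, Finset.sum_eq_zero fun g hg => ?_]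
        · simp
        · rw [if_neg fun hd => hlt.ne (by rw [← hd.orderOf_eq, (Finset.mem_filter.mp hg).2]),
            mul_zero]
      · rw [if_neg (by omega), zero_add, one_mul]
        have hT : ∀ g, SameDivision g h → (T.filter fun k => SameDivision g k) =
            T.filter fun k => SameDivision h k := fun g hg =>
          Finset.filter_congr fun k _ => ⟨fun hk => hg.symm.trans hk, fun hk => hg.trans hk⟩
        have hne : (T.filter fun k => SameDivision h k).card ≠ 0 :=
          Finset.card_ne_zero_of_mem (a := h)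
            (by simp [T, heq, SameDivision.refl])
        have hterm : ∀ g ∈ T, c g * (if SameDivision g h then (1 : ℝ) else 0) =
            if SameDivision h g then f h / (T.filter fun k => SameDivision h k).card else 0 := by
          intro g _
          by_cases hd : SameDivision g h
          · rw [if_pos hd, if_pos hd.symm, mul_one]
            simp only [c, hinv g h hd, hT g hd]
          · rw [if_neg hd, if_neg fun hd' => hd hd'.symm, mul_zero]
        rw [Finset.sum_congr rfl hterm, ← Finset.sum_filter, Finset.sum_const, nsmul_eq_mul,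
          mul_div_cancel₀]
        exact_mod_cast hne
      · rw [if_neg (by omega), hf h (by omega), Finset.sum_eq_zero fun g hg => ?_]
        · simp
        · rw [if_neg fun hd => hgt.ne (by rw [← hd.orderOf_eq, (Finset.mem_filter.mp hg).2]),
            mul_zero]
    rw [hsplit]
    refine HasFrobAverage.add_smul (ih _ (fun g hg => by simp [Nat.not_lt.mpr hg])
      fun a b hab => by simp only [hab.orderOf_eq, hinv a b hab]) ?_ 1
    suffices ∀ T' ⊆ T, HasFrobAverage frob
        (fun h => ∑ g ∈ T', c g * (if SameDivision g h then (1 : ℝ) else 0)) from this T (by simp)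
    intro T' hT'
    induction T' using Finset.induction with
    | empty => simpa using HasFrobAverage.zero
    | insert a T' ha hins =>
      have hfun : (fun h => ∑ g ∈ insert a T', c g * (if SameDivision g h then (1 : ℝ) else 0)) =
          fun h => (∑ g ∈ T', c g * (if SameDivision g h then (1 : ℝ) else 0)) +
            c a * (if SameDivision a h then (1 : ℝ) else 0) := by
        funext h
        rw [Finset.sum_insert ha, add_comm]
      rw [hfun]
      exact (hins ((Finset.subset_insert _ _).trans hT')).add_smul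
        (hdelta a (Finset.mem_filter.mp (hT' (Finset.mem_insert_self _ _))).2) _

/-- Weak Chebotarev theorem. -/
theorem exists_frobenius_sameDivision (σ : GL) (S : Finset ℕ) :
    ∃ p : ℕ, p.Prime ∧ p ∉ S ∧ InertiaTrivial L p ∧ ∃ (Q : Ideal (𝓞 L)) (φ : GL),
      Q.IsPrime ∧ (p : 𝓞 L) ∈ Q ∧ IsFrobMod p φ Q ∧ SameDivision φ σ := by
  classical
  by_contra hcon
  push Not at hcon
  obtain ⟨S₀, hS₀⟩ := exists_inertiaTrivial L
  have hchoose : ∀ p : Nat.Primes, ∃ φ : GL,
      ∃ Q : Ideal (𝓞 L), Q.IsPrime ∧ ((p : ℕ) : 𝓞 L) ∈ Q ∧ IsFrobMod p φ Q := by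
    intro p
    have hne : Ideal.span {((p : ℕ) : 𝓞 L)} ≠ ⊤ := fun h => by
      have h1 := Ideal.absNorm_span_natCast (S := 𝓞 L) (p : ℕ)
      rw [h, Ideal.absNorm_top, eq_comm, Nat.pow_eq_one] at h1
      exact h1.elim p.2.one_lt.ne' (Module.finrank_pos).ne'
    obtain ⟨Q, hQ, hle⟩ := Ideal.exists_le_maximal _ hne
    have hpQ : ((p : ℕ) : 𝓞 L) ∈ Q := hle (Ideal.subset_span rfl)
    obtain ⟨φ, hφ⟩ := exists_isFrobMod p.2 hQ.isPrime hpQ
    exact ⟨φ, Q, hQ.isPrime, hpQ, hφ⟩
  choose frob Q hQ hpQ hfrob using hchoose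
  let bad : Finset Nat.Primes := (S₀ ∪ S).subtype Nat.Prime
  have hgood : ∀ p ∉ bad, InertiaTrivial L p ∧ (p : ℕ) ∉ S := by
    intro p hp
    have hp' : (p : ℕ) ∉ S₀ ∪ S := fun h => hp (Finset.mem_subtype.mpr h)
    rw [Finset.mem_union, not_or] at hp'
    exact ⟨hS₀ p p.2 hp'.1, hp'.2⟩
  have hfix := fun H => hasFrobAverage_fix (frob := frob) bad
    (fun p hp => ⟨(hgood p hp).1, Q p, hQ p, hpQ p, hfrob p⟩) H
  let f : GL → ℝ := fun g => if SameDivision g σ then 1 else 0
  obtain ⟨C, hC⟩ := hasFrobAverage_of_division hfix (Nat.card GL + 1) f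
    (fun g hg => absurd (Nat.le_trans hg (orderOf_le_card (x := g))) (by omega))
    (fun g h hgh => if_congr ⟨fun h' => hgh.symm.trans h', fun h' => hgh.trans h'⟩ rfl rfl)
  have havg : 0 < (∑ g, f g) / Nat.card GL := by
    refine div_pos (Finset.sum_pos' (fun g _ => ?_) ⟨σ, Finset.mem_univ _, ?_⟩)
      (by exact_mod_cast Nat.card_pos)
    · simp only [f]; split_ifs <;> norm_num
    · simp [f, SameDivision.refl]
  set A := (∑ g, f g) / Nat.card GL
  have hlog : Tendsto (fun s : ℝ => Real.log (s - 1)) (𝓝[>] 1) atBot := by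
    refine Real.tendsto_log_nhdsGT_zero.comp ?_
    refine tendsto_nhdsWithin_iff.mpr ⟨?_, ?_⟩
    · have : Tendsto (fun s : ℝ => s - 1) (𝓝 1) (𝓝 (1 - 1)) :=
        (continuous_id.sub continuous_const).tendsto 1
      rw [sub_self] at this
      exact this.mono_left nhdsWithin_le_nhds
    · filter_upwards [self_mem_nhdsWithin] with s hs using sub_pos.mpr (Set.mem_Ioi.mp hs)
  have hbot := hlog.eventually (eventually_lt_atBot (-(C + bad.card) / A))
  obtain ⟨s, h1, h2, hs'⟩ := (hC.and (hbot.and self_mem_nhdsWithin)).exists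
  have hs : 1 < s := hs'
  have hbd : ∑' p : Nat.Primes, f (frob p) * (p : ℝ) ^ (-s) ≤ bad.card := by
    rw [tsum_eq_sum (s := bad) fun p hp => ?_]
    · calc ∑ p ∈ bad, f (frob p) * (p : ℝ) ^ (-s) ≤ ∑ _p ∈ bad, (1 : ℝ) := by
            refine Finset.sum_le_sum fun p _ => ?_
            refine mul_le_one₀ ?_ (Real.rpow_nonneg (Nat.cast_nonneg _) _) ?_
            · simp only [f]; split_ifs <;> norm_num
            · exact Real.rpow_le_one_of_one_le_of_nonpos (by exact_mod_cast p.2.one_lt.le)
                (by linarith)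
        _ = bad.card := by simp
    · simp only [f]
      rw [if_neg (hcon p p.2 (hgood p hp).2 (hgood p hp).1 (Q p) (frob p) (hQ p) (hpQ p) (hfrob p)),
        zero_mul]
  rw [lt_div_iff₀ havg] at h2
  have h3 := (abs_le.mp h1).1
  nlinarith

/-- Every automorphism is conjugate to a power of a Frobenius outside any finite set of primes. -/
theorem exists_frobenius_conj_pow (σ : GL) (S : Finset ℕ) :
    ∃ p : ℕ, p.Prime ∧ p ∉ S ∧ InertiaTrivial L p ∧ ∃ (Q : Ideal (𝓞 L)) (φ : GL) (k : ℕ),
      Q.IsPrime ∧ (p : 𝓞 L) ∈ Q ∧ IsFrobMod p φ Q ∧ σ = φ ^ k := by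
  obtain ⟨p, hp, hpS, hun, Q, φ, hQ, hpQ, hφ, x, hx⟩ := exists_frobenius_sameDivision σ S
  have hmem : σ ∈ Subgroup.zpowers (x * φ * x⁻¹) := hx ▸ Subgroup.mem_zpowers σ
  rw [← mem_powers_iff_mem_zpowers, Submonoid.mem_powers_iff] at hmem
  obtain ⟨k, hk⟩ := hmem
  refine ⟨p, hp, hpS, hun, x • Q, x * φ * x⁻¹, k, ?_, ?_, hφ.conj x, hk.symm⟩
  · rw [Ideal.pointwise_smul_eq_comap]; exact hQ.comap _
  · rw [Ideal.mem_pointwise_smul_iff_inv_smul_mem]
    exact Set.mem_of_eq_of_mem (map_natCast (MulSemiringAction.toRingHom GL (𝓞 L) x⁻¹) p) hpQ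

end FLTAgent.Frobenius
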