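import Mathlib

/-!
# Degree one primes of a number field have logarithmic Dirichlet series

For a number field `K`, the series `∑_p a_K(p) p^{-s}`, where `a_K(p)` is the number of ideals of
norm `p`, equals `-log (s - 1) + O(1)` as `s` tends to `1` from the right.
-/

set_option autoImplicit false

namespace FLTAgent.Frobenius

open NumberField Filter Topology Ideal
open scoped nonZeroDivisors

variable (K : Type) [Field K] [NumberField K]

/-- The number of ideals of norm `n`. -/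
noncomputable def idealCount (n : ℕ) : ℕ := Nat.card {I : Ideal (𝓞 K) // absNorm I = n}

lemma idealCount_one : idealCount K 1 = 1 := by
  rw [idealCount, Nat.card_eq_one_iff_unique]
  exact ⟨⟨fun a b => Subtype.ext ((absNorm_eq_one_iff.mp a.2).trans
    (absNorm_eq_one_iff.mp b.2).symm)⟩, ⟨⟨⊤, absNorm_top⟩⟩⟩

lemma finite_idealsOfNorm (n : ℕ) : Finite {I : Ideal (𝓞 K) // absNorm I = n} :=
  (finite_setOfPred_absNorm_eq (S := 𝓞 K) n).to_subtype

variable {K}

lemma sup_span_isCoprime {m n : ℕ} (hmn : m.Coprime n) (J J' : Ideal (𝓞 K))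
    (hJ : (m : 𝓞 K) ∈ J) (hJ' : (n : 𝓞 K) ∈ J') : IsCoprime J J' := by
  rw [Ideal.isCoprime_iff_sup_eq, eq_top_iff_one]
  have h := Int.gcd_eq_gcd_ab (m : ℤ) (n : ℤ)
  have hone : Int.gcd (m : ℤ) (n : ℤ) = 1 := by rw [Int.gcd_natCast_natCast]; exact hmn
  rw [hone] at h
  have h1 : (1 : 𝓞 K) = (m : 𝓞 K) * (Int.gcdA m n : 𝓞 K) + (n : 𝓞 K) * (Int.gcdB m n : 𝓞 K) := by
    exact_mod_cast congrArg (Int.cast : ℤ → 𝓞 K) h
  rw [h1]
  exact add_mem (Submodule.mem_sup_left (Ideal.mul_mem_right _ _ hJ))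
    (Submodule.mem_sup_right (Ideal.mul_mem_right _ _ hJ'))

lemma absNorm_sup_dvd {I : Ideal (𝓞 K)} {m n : ℕ} (hI : absNorm I = m * n)
    (hmn : m.Coprime n) : absNorm (I ⊔ span {(m : 𝓞 K)}) ∣ m := by
  have h1 : absNorm (I ⊔ span {(m : 𝓞 K)}) ∣ absNorm (span {(m : 𝓞 K)}) :=
    absNorm_dvd_absNorm_of_le le_sup_right
  have h2 : absNorm (I ⊔ span {(m : 𝓞 K)}) ∣ m * n := hI ▸ absNorm_dvd_absNorm_of_le le_sup_left
  rw [absNorm_span_natCast] at h1
  refine Nat.Coprime.dvd_of_dvd_mul_right ?_ h2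
  exact (Nat.Coprime.pow_left (Module.finrank ℤ (𝓞 K)) hmn).of_dvd_left h1

variable (K) in
lemma idealCount_mul {m n : ℕ} (hmn : m.Coprime n) :
    idealCount K (m * n) = idealCount K m * idealCount K n := by
  rw [idealCount, idealCount, idealCount, ← Nat.card_prod]
  have hcop : ∀ I : Ideal (𝓞 K), IsCoprime (I ⊔ span {(m : 𝓞 K)}) (I ⊔ span {(n : 𝓞 K)}) :=
    fun I => sup_span_isCoprime hmn _ _ (Submodule.mem_sup_right (subset_span rfl))
      (Submodule.mem_sup_right (subset_span rfl))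
  have hsplit : ∀ I : Ideal (𝓞 K), absNorm I = m * n →
      I = (I ⊔ span {(m : 𝓞 K)}) * (I ⊔ span {(n : 𝓞 K)}) := by
    intro I hI
    have hmem : (m : 𝓞 K) * (n : 𝓞 K) ∈ I := by
      rw [← Nat.cast_mul, ← hI]; exact absNorm_mem I
    refine le_antisymm ?_ ?_
    · rw [← Ideal.inf_eq_mul_of_isCoprime (hcop I)]
      exact le_inf le_sup_left le_sup_left
    · rw [Ideal.sup_mul, Ideal.mul_sup, Ideal.mul_sup, Ideal.span_singleton_mul_span_singleton]
      refine sup_le (sup_le Ideal.mul_le_left Ideal.mul_le_left) (sup_le Ideal.mul_le_right ?_)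
      rw [Ideal.span_singleton_le_iff_mem]
      exact hmem
  have hnorm : ∀ I : Ideal (𝓞 K), absNorm I = m * n →
      absNorm (I ⊔ span {(m : 𝓞 K)}) = m ∧ absNorm (I ⊔ span {(n : 𝓞 K)}) = n := by
    intro I hI
    have h1 := absNorm_sup_dvd hI hmn
    have h2 := absNorm_sup_dvd (m := n) (n := m) (hI.trans (mul_comm m n)) hmn.symm
    have h3 : absNorm (I ⊔ span {(m : 𝓞 K)}) * absNorm (I ⊔ span {(n : 𝓞 K)}) = m * n := by
      rw [← map_mul, ← hsplit I hI, hI]
    refine ⟨Nat.dvd_antisymm h1 ?_, Nat.dvd_antisymm h2 ?_⟩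
    · exact (hmn.of_dvd_right h2).dvd_of_dvd_mul_right (Dvd.intro n h3.symm)
    · exact (hmn.symm.of_dvd_right h1).dvd_of_dvd_mul_left (Dvd.intro_left m h3.symm)
  have hback : ∀ J J' : Ideal (𝓞 K), absNorm J = m → absNorm J' = n →
      J * J' ⊔ span {(m : 𝓞 K)} = J := by
    intro J J' hJ hJ'
    have hm : (m : 𝓞 K) ∈ J := hJ ▸ absNorm_mem J
    have hn : (n : 𝓞 K) ∈ J' := hJ' ▸ absNorm_mem J'
    refine le_antisymm (sup_le Ideal.mul_le_left ((span_singleton_le_iff_mem _).mpr hm)) ?_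
    have htop : J' ⊔ span {(m : 𝓞 K)} = ⊤ :=
      Ideal.isCoprime_iff_sup_eq.mp
        (sup_span_isCoprime hmn.symm J' _ hn (subset_span rfl))
    calc J = J * (J' ⊔ span {(m : 𝓞 K)}) := by rw [htop, Ideal.mul_top]
      _ ≤ J * J' ⊔ span {(m : 𝓞 K)} := by
        rw [Ideal.mul_sup]; exact sup_le_sup le_rfl Ideal.mul_le_right
  refine Nat.card_congr
    { toFun := fun I => (⟨_, (hnorm I.1 I.2).1⟩, ⟨_, (hnorm I.1 I.2).2⟩)
      invFun := fun J => ⟨J.1.1 * J.2.1, by rw [map_mul, J.1.2, J.2.2]⟩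
      left_inv := fun I => Subtype.ext (hsplit I.1 I.2).symm
      right_inv := fun J => Prod.ext (Subtype.ext (hback _ _ J.1.2 J.2.2)) (Subtype.ext ?_) }
  have h := sup_span_isCoprime (K := K) hmn
  show J.1.1 * J.2.1 ⊔ span {(n : 𝓞 K)} = J.2.1
  rw [mul_comm]
  have hm : (m : 𝓞 K) ∈ J.1.1 := by simpa only [J.1.2] using absNorm_mem J.1.1
  have hn : (n : 𝓞 K) ∈ J.2.1 := by simpa only [J.2.2] using absNorm_mem J.2.1
  refine le_antisymm (sup_le Ideal.mul_le_left ((span_singleton_le_iff_mem _).mpr hn)) ?_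
  have htop : J.1.1 ⊔ span {(n : 𝓞 K)} = ⊤ :=
    Ideal.isCoprime_iff_sup_eq.mp (h J.1.1 _ hm (subset_span rfl))
  calc J.2.1 = J.2.1 * (J.1.1 ⊔ span {(n : 𝓞 K)}) := by rw [htop, Ideal.mul_top]
    _ ≤ J.2.1 * J.1.1 ⊔ span {(n : 𝓞 K)} := by
      rw [Ideal.mul_sup]; exact sup_le_sup le_rfl Ideal.mul_le_right

open UniqueFactorizationMonoid in
/-- An ideal dividing a power of `p` has few prime factors. -/
lemma card_normalizedFactors_le {p e : ℕ} (hp : p.Prime) {I : Ideal (𝓞 K)}
    (hI : absNorm I = p ^ e) : Multiset.card (normalizedFactors I) ≤ e := by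
  have hI0 : I ≠ ⊥ := fun h => by simp [h] at hI; exact (pow_pos hp.pos e).ne hI
  have h1 : ∀ P ∈ normalizedFactors I, p ∣ absNorm P := by
    intro P hP
    have hdvd : absNorm P ∣ p ^ e := hI ▸ absNorm_dvd_absNorm_of_le
      (Ideal.le_of_dvd (dvd_of_mem_normalizedFactors hP))
    obtain ⟨k, -, hk⟩ := (Nat.dvd_prime_pow hp).mp hdvd
    rcases Nat.eq_zero_or_pos k with rfl | hk0
    · exact absurd (absNorm_eq_one_iff.mp (by simpa using hk))
        (isPrime_of_prime (prime_of_normalized_factor P hP)).ne_top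
    · exact hk ▸ dvd_pow_self p hk0.ne'
  have h2 : p ^ Multiset.card (normalizedFactors I) ∣ p ^ e := by
    calc p ^ Multiset.card (normalizedFactors I) =
          ((normalizedFactors I).map fun _ => p).prod := by simp
      _ ∣ ((normalizedFactors I).map absNorm).prod := by
          revert h1
          induction normalizedFactors I using Multiset.induction with
          | empty => simp
          | cons a m ih =>
            intro h1
            simp only [Multiset.map_cons, Multiset.prod_cons]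
            exact mul_dvd_mul (h1 a (Multiset.mem_cons_self a m))
              (ih fun P hP => h1 P (Multiset.mem_cons_of_mem hP))
      _ = absNorm I := by
          rw [← map_multiset_prod, associated_iff_eq.mp (prod_normalizedFactors hI0)]
      _ = p ^ e := hI
  exact (Nat.pow_dvd_pow_iff_le_right hp.one_lt).mp h2

variable (K) in
open UniqueFactorizationMonoid in
lemma idealCount_prime_pow_le {p : ℕ} (hp : p.Prime) (e : ℕ) :
    idealCount K (p ^ e) ≤ (e + 1) ^ Module.finrank ℤ (𝓞 K) := by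
  classical
  let d := Module.finrank ℤ (𝓞 K)
  let T : Finset (Ideal (𝓞 K)) := (normalizedFactors (span {(p : 𝓞 K)})).toFinset
  have hspan : absNorm (span {(p : 𝓞 K)}) = p ^ d := absNorm_span_natCast p
  have hT : T.card ≤ d := (Multiset.toFinset_card_le _).trans (card_normalizedFactors_le hp hspan)
  have := finite_idealsOfNorm K (p ^ e)
  let Φ : {I : Ideal (𝓞 K) // absNorm I = p ^ e} → (T → Fin (e + 1)) := fun I P =>
    ⟨(normalizedFactors I.1).count P.1, Nat.lt_succ_of_le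
      ((Multiset.count_le_card _ _).trans (card_normalizedFactors_le hp I.2))⟩
  have hΦ : Function.Injective Φ := by
    intro I I' h
    have hne : ∀ J : {I : Ideal (𝓞 K) // absNorm I = p ^ e}, J.1 ≠ ⊥ :=
      fun J h => by have := J.2; simp [h] at this; exact (pow_pos hp.pos e).ne this
    have hsub : ∀ (J : {I : Ideal (𝓞 K) // absNorm I = p ^ e}), ∀ P ∈ normalizedFactors J.1,
        P ∈ T := by
      intro J P hP
      have hPr := isPrime_of_prime (prime_of_normalized_factor P hP)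
      have hmem : ((p ^ e : ℕ) : 𝓞 K) ∈ P :=
        Ideal.le_of_dvd (dvd_of_mem_normalizedFactors hP)
          (by simpa only [J.2] using absNorm_mem J.1)
      rw [Nat.cast_pow] at hmem
      have hdvd : P ∣ span {(p : 𝓞 K)} :=
        Ideal.dvd_iff_le.mpr ((span_singleton_le_iff_mem _).mpr (hPr.mem_of_pow_mem e hmem))
      have h0 : span {(p : 𝓞 K)} ≠ ⊥ := fun h => by
        simp [h] at hspan; exact (pow_pos hp.pos d).ne hspan
      obtain ⟨Q, hQ, hQP⟩ := exists_mem_normalizedFactors_of_dvd h0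
        (prime_of_normalized_factor P hP).irreducible hdvd
      exact Multiset.mem_toFinset.mpr (associated_iff_eq.mp hQP ▸ hQ)
    have hf : normalizedFactors I.1 = normalizedFactors I'.1 := by
      refine Multiset.ext.mpr fun P => ?_
      by_cases hP : P ∈ T
      · exact congrArg Fin.val (congrFun h ⟨P, hP⟩)
      · rw [Multiset.count_eq_zero.mpr fun h => hP (hsub I P h),
          Multiset.count_eq_zero.mpr fun h => hP (hsub I' P h)]
    refine Subtype.ext ?_
    rw [← associated_iff_eq.mp (prod_normalizedFactors (hne I)), hf,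
      associated_iff_eq.mp (prod_normalizedFactors (hne I'))]
  calc idealCount K (p ^ e) ≤ Nat.card (T → Fin (e + 1)) := Nat.card_le_card_of_injective Φ hΦ
    _ = (e + 1) ^ T.card := by simp
    _ ≤ (e + 1) ^ d := Nat.pow_le_pow_right e.succ_pos hT

variable (K)

lemma sum_idealCount_isBigO :
    (fun n : ℕ => ∑ k ∈ Finset.Icc 1 n, (idealCount K k : ℝ)) =O[atTop]
      fun n : ℕ => (n : ℝ) ^ (1 : ℝ) := by
  have h := ((NumberField.Ideal.tendsto_norm_le_div_atTop K).comp
    tendsto_natCast_atTop_atTop).isBigO_one ℝ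
  obtain ⟨C, hC⟩ := h.bound
  refine Asymptotics.IsBigO.of_bound C ?_
  filter_upwards [hC, eventually_ge_atTop 1] with n hn hn1
  have hn0 : (0 : ℝ) < n := by exact_mod_cast hn1
  simp only [Function.comp_apply, Nat.cast_le, Real.norm_eq_abs, abs_div, Nat.abs_cast,
    abs_one, mul_one] at hn
  rw [div_le_iff₀ hn0] at hn
  rw [Real.norm_of_nonneg (by positivity), Real.rpow_one, Real.norm_of_nonneg (by positivity)]
  refine le_trans ?_ hn
  rw [← Nat.cast_sum, Nat.cast_le]
  have hcard : Nat.card {I : Ideal (𝓞 K) // absNorm I ≤ n} =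
      ∑ k ∈ Finset.Icc 0 n, idealCount K k := by
    simp only [idealCount]
    rw [← Finset.card_preimage_eq_sum_card_image_eq (fun k _ => finite_setOfPred_absNorm_eq k)]
    simp [Set.coe_eq_subtype]
  rw [hcard]
  exact Finset.sum_le_sum_of_subset (fun k hk => by simp only [Finset.mem_Icc] at hk ⊢; omega)

lemma summable_idealCount {s : ℝ} (hs : 1 < s) :
    Summable fun n : ℕ => (idealCount K n : ℝ) * (n : ℝ) ^ (-s) := by
  have h := (LSeriesSummable_of_sum_norm_bigO_and_nonneg (sum_idealCount_isBigO K)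
    (fun n => Nat.cast_nonneg _) zero_le_one (s := (s : ℂ)) (by simpa using hs)).norm
  refine h.congr fun n => ?_
  rcases Nat.eq_zero_or_pos n with rfl | hn
  · simp [Real.zero_rpow (show -s ≠ 0 by linarith)]
  · rw [LSeries.norm_term_eq, if_neg hn.ne', Complex.norm_real, Real.norm_of_nonneg (by positivity),
      Complex.ofReal_re, Real.rpow_neg (Nat.cast_nonneg n), div_eq_mul_inv]

lemma tendsto_sub_one_mul_tsum :
    Tendsto (fun s : ℝ => (s - 1) * ∑' n : ℕ, (idealCount K n : ℝ) * (n : ℝ) ^ (-s))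
      (𝓝[>] 1) (𝓝 (dedekindZeta_residue K)) := by
  have h := (Complex.continuous_re.tendsto _).comp (tendsto_sub_one_mul_dedekindZeta_nhdsGT K)
  rw [Complex.ofReal_re] at h
  refine h.congr' ?_
  filter_upwards [self_mem_nhdsWithin] with s hs
  have hterm : ∀ n : ℕ, LSeries.term (fun n => (idealCount K n : ℂ)) s n =
      (((idealCount K n : ℝ) * (n : ℝ) ^ (-s) : ℝ) : ℂ) := by
    intro n
    rcases Nat.eq_zero_or_pos n with rfl | hn
    · simp [Real.zero_rpow (show -s ≠ 0 by simp only [Set.mem_Ioi] at hs; linarith)]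
    · rw [LSeries.term_of_ne_zero hn.ne', Real.rpow_neg (Nat.cast_nonneg n), ← div_eq_mul_inv]
      push_cast [Complex.ofReal_cpow (Nat.cast_nonneg n)]
      rfl
  show ((((s : ℂ) - 1) * dedekindZeta K (s : ℂ))).re = _
  have hz : dedekindZeta K (s : ℂ) =
      ((∑' n : ℕ, (idealCount K n : ℝ) * (n : ℝ) ^ (-s) : ℝ) : ℂ) := by
    rw [Complex.ofReal_tsum]
    exact tsum_congr hterm
  rw [hz]
  simp

attribute [local irreducible] idealCount

lemma idealCount_prime_le {p : ℕ} (hp : p.Prime) :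
    (idealCount K p : ℝ) ≤ 2 ^ Module.finrank ℤ (𝓞 K) := by
  have h := idealCount_prime_pow_le K hp 1
  simp only [pow_one] at h
  exact_mod_cast h

lemma summable_primes_rpow {s : ℝ} (hs : 1 < s) :
    Summable fun p : Nat.Primes => (p : ℝ) ^ (-s) :=
  (Nat.Primes.summable_rpow).mpr (by linarith)

lemma summable_idealCount_primes {s : ℝ} (hs : 1 < s) :
    Summable fun p : Nat.Primes => (idealCount K p : ℝ) * (p : ℝ) ^ (-s) := by
  have hx : ∀ p : Nat.Primes, (0 : ℝ) ≤ (p : ℝ) ^ (-s) := fun p =>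
    Real.rpow_nonneg (Nat.cast_nonneg _) _
  refine Summable.of_nonneg_of_le (f := fun p : Nat.Primes =>
    (2 : ℝ) ^ Module.finrank ℤ (𝓞 K) * (p : ℝ) ^ (-s)) ?_ ?_ ?_
  · intro p
    exact mul_nonneg (Nat.cast_nonneg _) (hx p)
  · intro p
    have h2 := mul_le_mul_of_nonneg_right (idealCount_prime_le K p.2) (hx p)
    exact h2
  · exact (summable_primes_rpow hs).mul_left _

/-- `∑_p a_K(p) p^{-s} = -log (s - 1) + O(1)`. -/
theorem degreeOne_sum_asymptotic : ∃ C : ℝ, ∀ᶠ s in 𝓝[>] (1 : ℝ),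
    |∑' p : Nat.Primes, (idealCount K p : ℝ) * (p : ℝ) ^ (-s) + Real.log (s - 1)| ≤ C := by
  classical
  let d := Module.finrank ℤ (𝓞 K)
  let M : ℝ := ∑' j : ℕ, ((j : ℝ) + 3) ^ d * (1 / 2) ^ j
  have hMsum : Summable fun j : ℕ => ((j : ℝ) + 3) ^ d * (1 / 2 : ℝ) ^ j := by
    have hg : Summable fun j : ℕ => (j : ℝ) ^ d * (1 / 2 : ℝ) ^ j := by
      refine summable_pow_mul_geometric_of_norm_lt_one d ?_
      norm_num
    have h3 : Summable fun j : ℕ => ((j + 3 : ℕ) : ℝ) ^ d * (1 / 2 : ℝ) ^ (j + 3) :=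
      (summable_nat_add_iff (f := fun j : ℕ => (j : ℝ) ^ d * (1 / 2 : ℝ) ^ j) 3).mpr hg
    refine (h3.mul_left 8).congr fun j => ?_
    rw [Nat.cast_add, pow_add (1 / 2 : ℝ) j 3]
    generalize (1 / 2 : ℝ) ^ j = y
    norm_num
    ring
  let B : ℝ := (2 : ℝ) ^ d
  let Z : ℝ := ∑' p : Nat.Primes, (p : ℝ) ^ (-2 : ℝ)
  have hres := (Real.continuousAt_log (dedekindZeta_residue_ne_zero K)).tendsto.comp
    (tendsto_sub_one_mul_tsum K)
  obtain ⟨C₀, hC₀⟩ := ((hres.isBigO_one ℝ).bound)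
  refine ⟨C₀ + (B ^ 2 + M) * Z, ?_⟩
  filter_upwards [hC₀, self_mem_nhdsWithin] with s hs0 hs
  simp only [Set.mem_Ioi] at hs
  let f : ℕ → ℝ := fun n => (idealCount K n : ℝ) * (n : ℝ) ^ (-s)
  have hfsum : Summable f := summable_idealCount K hs
  have hf0 : f 0 = 0 := by simp [f, Real.zero_rpow (show -s ≠ 0 by linarith)]
  have hprod := EulerProduct.eulerProduct_hasProd (f := f)
    (by simp [f, idealCount_one]) (fun {m n} hmn => by
      simp only [f, idealCount_mul K hmn, Nat.cast_mul]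
      rw [Real.mul_rpow (Nat.cast_nonneg m) (Nat.cast_nonneg n)]
      ring) (hfsum.norm) hf0
  let F : Nat.Primes → ℝ := fun p => ∑' e, f ((p : ℕ) ^ e)
  let a : Nat.Primes → ℝ := fun p => (idealCount K p : ℝ) * (p : ℝ) ^ (-s)
  let q : Nat.Primes → ℝ := fun p => (p : ℝ) ^ (-2 : ℝ)
  have hq : Summable q := summable_primes_rpow one_lt_two
  have hFb : ∀ p, 1 + a p ≤ F p ∧ F p ≤ 1 + a p + M * q p := by
    intro p
    have hx0 : (0 : ℝ) ≤ (p : ℝ) ^ (-s) := by positivity
    have hxhalf : (p : ℝ) ^ (-s) ≤ 1 / 2 := by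
      calc (p : ℝ) ^ (-s) ≤ (p : ℝ) ^ (-1 : ℝ) :=
            Real.rpow_le_rpow_of_exponent_le (by exact_mod_cast p.2.one_lt.le) (by linarith)
        _ ≤ 1 / 2 := by
            rw [Real.rpow_neg_one, one_div]
            exact inv_anti₀ two_pos (by exact_mod_cast p.2.two_le)
    have hse : Summable fun e : ℕ => f ((p : ℕ) ^ e) :=
      hfsum.comp_injective (Nat.pow_right_injective p.2.two_le)
    have hsplit : F p = 1 + a p + ∑' e, f ((p : ℕ) ^ (e + 2)) := by
      rw [show F p = ∑' e, f ((p : ℕ) ^ e) from rfl, ← hse.sum_add_tsum_nat_add 2]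
      simp [Finset.sum_range_succ, f, a, idealCount_one]
    refine ⟨?_, ?_⟩
    · rw [hsplit]
      exact le_add_of_nonneg_right (tsum_nonneg fun e => by positivity)
    · rw [hsplit, add_le_add_iff_left]
      have hq' : ((p : ℝ) ^ (-s)) ^ 2 ≤ q p := by
        rw [← Real.rpow_natCast ((p : ℝ) ^ (-s)), ← Real.rpow_mul (Nat.cast_nonneg _)]
        exact Real.rpow_le_rpow_of_exponent_le (by exact_mod_cast p.2.one_lt.le)
          (by push_cast; linarith)
      have hterm : ∀ j : ℕ, f ((p : ℕ) ^ (j + 2)) ≤ (((j : ℝ) + 3) ^ d * (1 / 2) ^ j) * q p := by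
        intro j
        have hcnt : (idealCount K ((p : ℕ) ^ (j + 2)) : ℝ) ≤ ((j : ℝ) + 3) ^ d := by
          have := idealCount_prime_pow_le K p.2 (j + 2)
          calc (idealCount K ((p : ℕ) ^ (j + 2)) : ℝ) ≤ (((j + 2 + 1) ^ d : ℕ) : ℝ) := by
                exact_mod_cast this
            _ = _ := by push_cast; ring
        have hpow : (((p : ℕ) ^ (j + 2) : ℕ) : ℝ) ^ (-s) =
            ((p : ℝ) ^ (-s)) ^ j * ((p : ℝ) ^ (-s)) ^ 2 := by
          rw [← pow_add, Nat.cast_pow, ← Real.rpow_natCast, ← Real.rpow_natCast,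
            ← Real.rpow_mul (Nat.cast_nonneg _), ← Real.rpow_mul (Nat.cast_nonneg _), mul_comm]
        show (idealCount K ((p : ℕ) ^ (j + 2)) : ℝ) * _ ≤ _
        rw [hpow, mul_assoc]
        exact mul_le_mul hcnt (mul_le_mul (pow_le_pow_left₀ hx0 hxhalf j) hq' (by positivity)
          (by positivity)) (by positivity) (by positivity)
      calc ∑' e, f ((p : ℕ) ^ (e + 2)) ≤ ∑' j : ℕ, (((j : ℝ) + 3) ^ d * (1 / 2) ^ j) * q p :=
            ((summable_nat_add_iff 2).mpr hse).tsum_le_tsum hterm (hMsum.mul_right _)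
        _ = M * q p := tsum_mul_right
  have ha : Summable a := summable_idealCount_primes K hs
  have ha0 : ∀ p, 0 ≤ a p := fun p => by positivity
  have hM0 : 0 ≤ M := tsum_nonneg fun j => by positivity
  have hq0 : ∀ p, 0 ≤ q p := fun p => by positivity
  have hlog : ∀ p, a p - B ^ 2 * q p ≤ Real.log (F p) ∧ Real.log (F p) ≤ a p + M * q p := by
    intro p
    obtain ⟨h1, h2⟩ := hFb p
    have hFpos : 0 < F p := by linarith [ha0 p]
    refine ⟨?_, by linarith [Real.log_le_sub_one_of_pos hFpos]⟩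
    have hl : Real.log (1 + a p) ≤ Real.log (F p) := Real.log_le_log (by linarith [ha0 p]) h1
    have hl2 : 1 - (1 + a p)⁻¹ ≤ Real.log (1 + a p) :=
      Real.one_sub_inv_le_log_of_pos (by linarith [ha0 p])
    have hl3 : a p - (a p) ^ 2 ≤ 1 - (1 + a p)⁻¹ := by
      rw [le_sub_iff_add_le, ← le_sub_iff_add_le', inv_le_iff_one_le_mul₀ (by linarith [ha0 p])]
      nlinarith [ha0 p, pow_nonneg (ha0 p) 3]
    have hsq : (a p) ^ 2 ≤ B ^ 2 * q p := by
      show ((idealCount K p : ℝ) * (p : ℝ) ^ (-s)) ^ 2 ≤ _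
      rw [mul_pow]
      refine mul_le_mul (pow_le_pow_left₀ (Nat.cast_nonneg _) (idealCount_prime_le K p.2) 2) ?_
        (by positivity) (by positivity)
      rw [← Real.rpow_natCast ((p : ℝ) ^ (-s)), ← Real.rpow_mul (Nat.cast_nonneg _)]
      exact Real.rpow_le_rpow_of_exponent_le (by exact_mod_cast p.2.one_lt.le)
        (by push_cast; linarith)
    linarith
  have hls : Summable fun p => Real.log (F p) := by
    have h2 : Summable fun p => a p + (B ^ 2 + M) * q p := ha.add (hq.mul_left _)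
    refine Summable.of_norm_bounded h2 fun p => ?_
    rw [Real.norm_eq_abs, abs_le]
    obtain ⟨h3, h4⟩ := hlog p
    constructor <;> nlinarith [ha0 p, hq0 p, hM0, sq_nonneg B]
  have hexp : Real.exp (∑' p, Real.log (F p)) = ∑' n, f n := by
    have h := hls.hasSum.rexp
    have h' : (Real.exp ∘ fun p => Real.log (F p)) = F :=
      funext fun p => Real.exp_log (by linarith [(hFb p).1, ha0 p])
    rw [h'] at h
    exact h.unique hprod
  have hpos : 0 < ∑' n, f n := hexp ▸ Real.exp_pos _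
  have hlz : |Real.log (s - 1) + ∑' p, Real.log (F p)| ≤ C₀ := by
    rw [← Real.log_exp (∑' p, Real.log (F p)), hexp,
      ← Real.log_mul (by linarith) hpos.ne']
    simpa using hs0
  have hd1 : ∑' p, a p - B ^ 2 * Z ≤ ∑' p, Real.log (F p) := by
    rw [← tsum_mul_left, ← ha.tsum_sub (hq.mul_left _)]
    exact (ha.sub (hq.mul_left _)).tsum_le_tsum (fun p => (hlog p).1) hls
  have hd2 : ∑' p, Real.log (F p) ≤ ∑' p, a p + M * Z := by
    rw [← tsum_mul_left, ← ha.tsum_add (hq.mul_left _)]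
    exact hls.tsum_le_tsum (fun p => (hlog p).2) (ha.add (hq.mul_left _))
  have hZ0 : 0 ≤ Z := tsum_nonneg hq0
  rw [abs_le] at hlz ⊢
  constructor <;> nlinarith [hlz.1, hlz.2, mul_nonneg (sq_nonneg B) hZ0, mul_nonneg hM0 hZ0]

end FLTAgent.Frobenius
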