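import Fermat.Agent.Frobenius.Zeta

/-!
# Degree one primes of a fixed field and fixed points of Frobenius on cosets
-/

set_option autoImplicit false

namespace FLTAgent.Frobenius

open NumberField Pointwise

variable {L : Type} [Field L] [NumberField L]

local notation "GL" => (L ≃ₐ[ℚ] L)

/-- `φ` acts as `x ↦ x ^ p` modulo `Q`. -/
def IsFrobMod (p : ℕ) (φ : L ≃ₐ[ℚ] L) (Q : Ideal (𝓞 L)) : Prop :=
  ∀ b : 𝓞 L, φ • b - b ^ p ∈ Q

/-- The inertia groups above `p` are trivial. -/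
def InertiaTrivial (L : Type) [Field L] [NumberField L] (p : ℕ) : Prop :=
  ∀ Q : Ideal (𝓞 L), Q.IsPrime → (p : 𝓞 L) ∈ Q →
    ∀ g : L ≃ₐ[ℚ] L, (∀ b : 𝓞 L, g • b - b ∈ Q) → g = 1

lemma exists_smul_ne {g : GL} (hg : g ≠ 1) : ∃ b : 𝓞 L, g • b ≠ b := by
  by_contra h
  push Not at h
  refine hg (AlgEquiv.ext fun x => ?_)
  obtain ⟨a, b, -, rfl⟩ := IsFractionRing.div_surjective (A := 𝓞 L) x
  have ha := congrArg (algebraMap (𝓞 L) L) (h a)
  have hb := congrArg (algebraMap (𝓞 L) L) (h b)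
  rw [AlgEquiv.one_apply, map_div₀]
  congr 1

/-- All but finitely many primes have trivial inertia in a number field. -/
theorem exists_inertiaTrivial (L : Type) [Field L] [NumberField L] :
    ∃ S : Finset ℕ, ∀ p : ℕ, p.Prime → p ∉ S → InertiaTrivial L p := by
  classical
  choose b hb using fun g : {g : L ≃ₐ[ℚ] L // g ≠ 1} => exists_smul_ne g.2
  let N := fun g : {g : L ≃ₐ[ℚ] L // g ≠ 1} =>
    Ideal.absNorm (Ideal.span {g.1 • b g - b g})
  refine ⟨Finset.univ.biUnion fun g => (N g).primeFactors, fun p hp hpS Q hQ hpQ g hg => ?_⟩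
  by_contra hg1
  apply hpS
  refine Finset.mem_biUnion.mpr ⟨⟨g, hg1⟩, Finset.mem_univ _, ?_⟩
  refine Nat.mem_primeFactors.mpr ⟨hp, ?_, ?_⟩
  · have h1 : Ideal.absNorm Q ∣ N ⟨g, hg1⟩ := Ideal.absNorm_dvd_absNorm_of_le
      ((Ideal.span_singleton_le_iff_mem _).mpr (hg (b ⟨g, hg1⟩)))
    refine dvd_trans ?_ h1
    have h2 : Ideal.absNorm Q ∣ p ^ Module.finrank ℤ (𝓞 L) := by
      rw [← Ideal.absNorm_span_natCast (S := 𝓞 L) p]
      exact Ideal.absNorm_dvd_absNorm_of_le ((Ideal.span_singleton_le_iff_mem _).mpr hpQ)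
    obtain ⟨k, -, hk⟩ := (Nat.dvd_prime_pow hp).mp h2
    rcases Nat.eq_zero_or_pos k with rfl | hk0
    · exact absurd (Ideal.absNorm_eq_one_iff.mp (by simpa using hk)) hQ.ne_top
    · exact hk ▸ dvd_pow_self p hk0.ne'
  · rw [Ne, Ideal.absNorm_eq_zero_iff, Ideal.span_singleton_eq_bot, sub_eq_zero]
    exact hb ⟨g, hg1⟩

variable [IsGalois ℚ L]

lemma isInvariant_int (L : Type) [Field L] [NumberField L] [IsGalois ℚ L] :
    Algebra.IsInvariant ℤ (𝓞 L) (L ≃ₐ[ℚ] L) := by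
  refine ⟨fun b hb => ?_⟩
  have hbot : (b : L) ∈ (⊥ : IntermediateField ℚ L) := by
    rw [IsGalois.mem_bot_iff_fixed]
    intro g
    exact congrArg (algebraMap (𝓞 L) L) (hb g)
  obtain ⟨q, hq⟩ := IntermediateField.mem_bot.mp hbot
  have hint : IsIntegral ℤ q :=
    (isIntegral_algebraMap_iff (algebraMap ℚ L).injective).mp (hq ▸ RingOfIntegers.isIntegral_coe b)
  obtain ⟨z, hz⟩ := IsIntegrallyClosed.isIntegral_iff.mp hint
  refine ⟨z, RingOfIntegers.ext ?_⟩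
  rw [← hq, ← hz]
  simp

omit [IsGalois ℚ L] in
lemma under_int_eq {p : ℕ} (hp : p.Prime) {Q : Ideal (𝓞 L)} (hQ : Q.IsPrime)
    (hpQ : (p : 𝓞 L) ∈ Q) : Q.under ℤ = Ideal.span {(p : ℤ)} := by
  refine ((PrincipalIdealRing.isMaximal_of_irreducible
    (Nat.prime_iff_prime_int.mp hp).irreducible).eq_of_le ?_ ?_).symm
  · exact (Ideal.IsPrime.comap (algebraMap ℤ (𝓞 L)) (hK := hQ)).ne_top
  · rw [Ideal.span_singleton_le_iff_mem, Ideal.mem_comap, map_natCast]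
    exact hpQ

omit [IsGalois ℚ L] in
lemma isMaximal_of_mem {p : ℕ} (hp : p.Prime) {Q : Ideal (𝓞 L)} (hQ : Q.IsPrime)
    (hpQ : (p : 𝓞 L) ∈ Q) : Q.IsMaximal := by
  refine hQ.isMaximal fun h => ?_
  rw [h, Ideal.mem_bot] at hpQ
  exact hp.ne_zero (by exact_mod_cast hpQ)

omit [IsGalois ℚ L] in
lemma finite_quotient {p : ℕ} (hp : p.Prime) {Q : Ideal (𝓞 L)} (hQ : Q.IsPrime)
    (hpQ : (p : 𝓞 L) ∈ Q) : Finite (𝓞 L ⧸ Q) :=
  Ideal.finiteQuotientOfFreeOfNeBot Q fun h => by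
    rw [h, Ideal.mem_bot] at hpQ
    exact hp.ne_zero (by exact_mod_cast hpQ)

/-- Frobenius elements exist at every prime of a Galois number field. -/
theorem exists_isFrobMod {p : ℕ} (hp : p.Prime) {Q : Ideal (𝓞 L)} (hQ : Q.IsPrime)
    (hpQ : (p : 𝓞 L) ∈ Q) : ∃ φ : GL, IsFrobMod p φ Q := by
  have := isInvariant_int L
  have := finite_quotient hp hQ hpQ
  obtain ⟨φ, hφ⟩ := IsArithFrobAt.exists_of_isInvariant (R := ℤ) (G := GL) Q
  refine ⟨φ, fun b => ?_⟩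
  have h := hφ b
  rwa [under_int_eq hp hQ hpQ, Nat.card_congr (Int.quotientSpanNatEquivZMod p).toEquiv,
    Nat.card_zmod] at h

/-- Primes above `p` are conjugate. -/
theorem exists_smul_eq_of_mem {p : ℕ} (hp : p.Prime) {Q Q' : Ideal (𝓞 L)} (hQ : Q.IsPrime)
    (hpQ : (p : 𝓞 L) ∈ Q) (hQ' : Q'.IsPrime) (hpQ' : (p : 𝓞 L) ∈ Q') :
    ∃ g : GL, Q' = g • Q := by
  have := isInvariant_int L
  exact Algebra.IsInvariant.exists_smul_of_under_eq ℤ (𝓞 L) GL Q Q'
    ((under_int_eq hp hQ hpQ).trans (under_int_eq hp hQ' hpQ').symm)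

omit [IsGalois ℚ L] in
lemma IsFrobMod.conj {p : ℕ} {φ : GL} {Q : Ideal (𝓞 L)} (h : IsFrobMod p φ Q) (x : GL) :
    IsFrobMod p (x * φ * x⁻¹) (x • Q) := by
  intro b
  rw [Ideal.mem_pointwise_smul_iff_inv_smul_mem, smul_sub, smul_pow', mul_smul, mul_smul,
    inv_smul_smul]
  exact h (x⁻¹ • b)

omit [IsGalois ℚ L] in
lemma IsFrobMod.smul_eq {p : ℕ} (hp : p.Prime) {φ : GL} {Q : Ideal (𝓞 L)} (hQ : Q.IsPrime)
    (hpQ : (p : 𝓞 L) ∈ Q) (h : IsFrobMod p φ Q) : φ • Q = Q := by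
  refine ((isMaximal_of_mem hp hQ hpQ).eq_of_le ?_ ?_).symm
  · exact Ideal.IsPrime.ne_top (by rw [Ideal.pointwise_smul_eq_comap]; exact hQ.comap _)
  · intro b hb
    rw [Ideal.mem_pointwise_smul_iff_inv_smul_mem]
    have h1 := h (φ⁻¹ • b)
    rw [smul_inv_smul] at h1
    exact hQ.mem_of_pow_mem p ((Submodule.sub_mem_iff_right _ hb).mp h1)

omit [IsGalois ℚ L] in
/-- With trivial inertia the Frobenius is unique and generates the decomposition group. -/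
theorem exists_pow_of_smul_eq {p : ℕ} (hp : p.Prime) (hun : InertiaTrivial L p) {φ : GL}
    {Q : Ideal (𝓞 L)} (hQ : Q.IsPrime) (hpQ : (p : 𝓞 L) ∈ Q) (hφ : IsFrobMod p φ Q) {g : GL}
    (hg : g • Q = Q) : ∃ k : ℕ, g = φ ^ k := by
  classical
  have : Fact p.Prime := ⟨hp⟩
  have := isMaximal_of_mem hp hQ hpQ
  let : Field (𝓞 L ⧸ Q) := Ideal.Quotient.field Q
  have := finite_quotient hp hQ hpQ
  have : CharP (𝓞 L ⧸ Q) p := by
    refine (CharP.charP_iff_prime_eq_zero hp).mpr ?_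
    rw [← map_natCast (Ideal.Quotient.mk Q), Ideal.Quotient.eq_zero_iff_mem]
    exact hpQ
  let : Algebra (ZMod p) (𝓞 L ⧸ Q) := ZMod.algebra _ p
  have hle : Q ≤ Q.comap (MulSemiringAction.toRingHom GL (𝓞 L) g) := fun b hb => by
    rw [Ideal.mem_comap]
    show g • b ∈ Q
    rw [← hg]
    exact Ideal.smul_mem_pointwise_smul g b Q hb
  let gbar : (𝓞 L ⧸ Q) →ₐ[ZMod p] (𝓞 L ⧸ Q) :=
    { toRingHom := Ideal.quotientMap Q (MulSemiringAction.toRingHom GL (𝓞 L) g) hle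
      commutes' := fun z => DFunLike.congr_fun (Subsingleton.elim
        ((Ideal.quotientMap Q (MulSemiringAction.toRingHom GL (𝓞 L) g) hle).comp
          (algebraMap (ZMod p) (𝓞 L ⧸ Q))) (algebraMap (ZMod p) (𝓞 L ⧸ Q))) z }
  obtain ⟨⟨k, hk⟩, hkg⟩ := (FiniteField.bijective_frobeniusAlgHom_pow (ZMod p) (𝓞 L ⧸ Q)).2 gbar
  refine ⟨k, ?_⟩
  have hpow : ∀ (j : ℕ) (b : 𝓞 L), φ ^ j • b - b ^ p ^ j ∈ Q := by
    intro j
    induction j with
    | zero => intro b; simp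
    | succ j ih =>
      intro b
      have h1 := Ideal.smul_mem_pointwise_smul φ _ Q (ih b)
      rw [hφ.smul_eq hp hQ hpQ, smul_sub, ← mul_smul, ← pow_succ'] at h1
      have h2 := hφ (b ^ p ^ j)
      rw [← pow_mul, ← pow_succ] at h2
      simpa using add_mem h1 h2
  have hcong : ∀ b : 𝓞 L, g • b - φ ^ k • b ∈ Q := by
    intro b
    have h := DFunLike.congr_fun hkg (Ideal.Quotient.mk Q b)
    simp only [AlgHom.coe_pow, FiniteField.coe_frobeniusAlgHom, pow_iterate, ZMod.card,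
      ← map_pow] at h
    have h' : Ideal.Quotient.mk Q (b ^ p ^ k) = Ideal.Quotient.mk Q (g • b) := h
    rw [← Ideal.Quotient.eq, ← h', Ideal.Quotient.eq]
    simpa using neg_mem (hpow k b)
  have hstab : ∀ j : ℕ, φ ^ j • Q = Q := by
    intro j
    induction j with
    | zero => simp
    | succ j ih => rw [pow_succ, mul_smul, hφ.smul_eq hp hQ hpQ, ih]
  have h1 : (φ ^ k)⁻¹ * g = 1 := by
    refine hun Q hQ hpQ _ fun b => ?_
    have h2 : (φ ^ k)⁻¹ • (g • b - φ ^ k • b) ∈ (φ ^ k)⁻¹ • Q :=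
      Ideal.smul_mem_pointwise_smul _ _ Q (hcong b)
    rw [inv_smul_eq_iff.mpr (hstab k).symm, smul_sub, inv_smul_smul, ← mul_smul] at h2
    exact h2
  exact (inv_mul_eq_one.mp h1).symm

omit [IsGalois ℚ L] in
/-- With trivial inertia there is at most one Frobenius at each prime. -/
theorem IsFrobMod.unique {p : ℕ} (hp : p.Prime) (hun : InertiaTrivial L p) {φ ψ : GL}
    {Q : Ideal (𝓞 L)} (hQ : Q.IsPrime) (hpQ : (p : 𝓞 L) ∈ Q) (hφ : IsFrobMod p φ Q)
    (hψ : IsFrobMod p ψ Q) : φ = ψ := by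
  refine (inv_mul_eq_one.mp (hun Q hQ hpQ (φ⁻¹ * ψ) fun b => ?_))
  have h1 : φ⁻¹ • (ψ • b - φ • b) ∈ φ⁻¹ • Q := by
    refine Ideal.smul_mem_pointwise_smul _ _ Q ?_
    have := sub_mem (hψ b) (hφ b)
    simpa using this
  rw [inv_smul_eq_iff.mpr (hφ.smul_eq hp hQ hpQ).symm, smul_sub, inv_smul_smul, ← mul_smul] at h1
  exact h1

omit [IsGalois ℚ L] in
/-- A prime of a subring all of whose elements are fixed by a Frobenius has degree one. -/
lemma absNorm_comap_of_fixed {K : Type} [Field K] [NumberField K] (ι : 𝓞 K →+* 𝓞 L) {p : ℕ}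
    (hp : p.Prime) {φ : GL} {Q : Ideal (𝓞 L)} (hQ : Q.IsPrime) (hpQ : (p : 𝓞 L) ∈ Q)
    (hφ : IsFrobMod p φ Q) (hfix : ∀ a : 𝓞 K, φ • ι a = ι a) :
    Ideal.absNorm (Q.comap ι) = p := by
  classical
  set P := Q.comap ι with hP
  have hPprime : P.IsPrime := Ideal.IsPrime.comap ι
  have hpP : (p : 𝓞 K) ∈ P := by rw [hP, Ideal.mem_comap, map_natCast]; exact hpQ
  have hP0 : P ≠ ⊥ := fun h => by
    rw [h, Ideal.mem_bot] at hpP
    exact hp.ne_zero (by exact_mod_cast hpP)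
  have := hPprime.isMaximal hP0
  let : Field (𝓞 K ⧸ P) := Ideal.Quotient.field P
  have := Ideal.finiteQuotientOfFreeOfNeBot P hP0
  have hroot : ∀ y : 𝓞 K ⧸ P, y ^ p = y := by
    intro y
    obtain ⟨a, rfl⟩ := Ideal.Quotient.mk_surjective y
    rw [← map_pow, eq_comm, Ideal.Quotient.eq, hP, Ideal.mem_comap, map_sub, map_pow]
    have := hφ (ι a)
    rwa [hfix a] at this
  have hle : Nat.card (𝓞 K ⧸ P) ≤ p := by
    let := Fintype.ofFinite (𝓞 K ⧸ P)
    rw [Nat.card_eq_fintype_card]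
    let f : Polynomial (𝓞 K ⧸ P) := Polynomial.X ^ p - Polynomial.X
    have hf : f.natDegree = p := FiniteField.X_pow_card_sub_X_natDegree_eq _ hp.one_lt
    calc Fintype.card (𝓞 K ⧸ P) ≤ f.roots.toFinset.card := by
          rw [← Finset.card_univ]
          refine Finset.card_le_card fun y _ => ?_
          rw [Multiset.mem_toFinset, Polynomial.mem_roots
            (FiniteField.X_pow_card_sub_X_ne_zero _ hp.one_lt)]
          simp [hroot y]
      _ ≤ f.natDegree := (Multiset.toFinset_card_le _).trans (Polynomial.card_roots' f)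
      _ = p := hf
  have heq : Ideal.absNorm P = Nat.card (𝓞 K ⧸ P) := by
    rw [Ideal.absNorm_apply, Submodule.cardQuot_apply]
  rw [← heq] at hle
  have h2 : Ideal.absNorm P ∣ p ^ Module.finrank ℤ (𝓞 K) := by
    rw [← Ideal.absNorm_span_natCast (S := 𝓞 K) p]
    exact Ideal.absNorm_dvd_absNorm_of_le ((Ideal.span_singleton_le_iff_mem _).mpr hpP)
  obtain ⟨k, -, hk⟩ := (Nat.dvd_prime_pow hp).mp h2
  rcases Nat.lt_or_ge 1 k with hk1 | hk1
  · exfalso
    have : p ^ 1 < p ^ k := Nat.pow_lt_pow_right hp.one_lt hk1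
    rw [pow_one] at this
    omega
  · rcases Nat.le_one_iff_eq_zero_or_eq_one.mp hk1 with rfl | rfl
    · exact absurd (Ideal.absNorm_eq_one_iff.mp (by simpa using hk)) hPprime.ne_top
    · simpa using hk

open scoped IntermediateField in
/-- Ideals of norm `p` in `L^H` correspond to the fixed points of Frobenius on `G ⧸ H`. -/
theorem idealCount_fixedField (H : Subgroup GL) {p : ℕ} (hp : p.Prime)
    (hun : InertiaTrivial L p) {φ : GL} {Q : Ideal (𝓞 L)} (hQ : Q.IsPrime)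
    (hpQ : (p : 𝓞 L) ∈ Q) (hφ : IsFrobMod p φ Q) :
    idealCount (IntermediateField.fixedField H) p =
      Nat.card {c : GL ⧸ H // φ • c = c} := by
  classical
  set K := IntermediateField.fixedField H
  let ι : 𝓞 K →+* 𝓞 L := algebraMap (𝓞 K) (𝓞 L)
  have hfix : ∀ (h : GL), h ∈ H → ∀ a : 𝓞 K, h • ι a = ι a := fun h hh a =>
    RingOfIntegers.ext ((IntermediateField.mem_fixedField_iff H _).mp (a : K).2 h hh)
  have : SMulCommClass H (𝓞 K) (𝓞 L) := ⟨fun h a b => by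
    show (h : GL) • (a • b) = a • ((h : GL) • b)
    rw [Algebra.smul_def, Algebra.smul_def, smul_mul', hfix h h.2]⟩
  have : Algebra.IsInvariant (𝓞 K) (𝓞 L) H := ⟨fun b hb => by
    have hbK : (b : L) ∈ K := (IntermediateField.mem_fixedField_iff H _).mpr fun h hh =>
      congrArg (algebraMap (𝓞 L) L) (hb ⟨h, hh⟩)
    have hint : IsIntegral ℤ (⟨(b : L), hbK⟩ : K) :=
      (isIntegral_algebraMap_iff (B := L) (algebraMap K L).injective).mp
        (RingOfIntegers.isIntegral_coe b)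
    exact ⟨⟨⟨(b : L), hbK⟩, hint⟩, RingOfIntegers.ext rfl⟩⟩
  have hprime : ∀ x : GL, (x⁻¹ • Q).IsPrime := fun x => by
    rw [Ideal.pointwise_smul_eq_comap]; exact hQ.comap _
  have hmem : ∀ x : GL, (p : 𝓞 L) ∈ x⁻¹ • Q := fun x => by
    rw [Ideal.mem_pointwise_smul_iff_inv_smul_mem, inv_inv]
    exact Set.mem_of_eq_of_mem (map_natCast (MulSemiringAction.toRingHom GL (𝓞 L) x) p) hpQ
  have hfrob : ∀ x : GL, IsFrobMod p (x⁻¹ * φ * x) (x⁻¹ • Q) := fun x => by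
    simpa using hφ.conj x⁻¹
  let Φ : GL ⧸ H → Ideal (𝓞 K) := Quotient.lift (fun x => (x⁻¹ • Q).comap ι) (by
    intro x y hxy
    ext a
    rw [Ideal.mem_comap, Ideal.mem_comap, Ideal.mem_pointwise_smul_iff_inv_smul_mem,
      Ideal.mem_pointwise_smul_iff_inv_smul_mem, inv_inv, inv_inv]
    have h : x⁻¹ * y ∈ H := QuotientGroup.leftRel_apply.mp hxy
    rw [show y • ι a = x • ((x⁻¹ * y) • ι a) by rw [mul_smul, smul_inv_smul], hfix _ h])
  have hfixed : ∀ x : GL, φ • (QuotientGroup.mk x : GL ⧸ H) = QuotientGroup.mk x ↔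
      x⁻¹ * φ * x ∈ H := by
    intro x
    rw [MulAction.Quotient.smul_mk, eq_comm, QuotientGroup.eq, smul_eq_mul, mul_assoc]
  have hfwd : ∀ c : {c : GL ⧸ H // φ • c = c}, Ideal.absNorm (Φ c.1) = p := by
    rintro ⟨c, hc⟩
    obtain ⟨x, rfl⟩ := QuotientGroup.mk_surjective c
    have hxH := (hfixed x).mp hc
    exact absNorm_comap_of_fixed ι hp (hprime x) (hmem x) (hfrob x) (hfix _ hxH)
  let Ψ : {c : GL ⧸ H // φ • c = c} → {I : Ideal (𝓞 K) // Ideal.absNorm I = p} :=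
    fun c => ⟨Φ c.1, hfwd c⟩
  rw [idealCount]
  refine (Nat.card_eq_of_bijective Ψ ⟨?_, ?_⟩).symm
  · rintro ⟨c, hc⟩ ⟨c', hc'⟩ h
    obtain ⟨x, rfl⟩ := QuotientGroup.mk_surjective c
    obtain ⟨y, rfl⟩ := QuotientGroup.mk_surjective c'
    have h1 : (x⁻¹ • Q).comap ι = (y⁻¹ • Q).comap ι := congrArg Subtype.val h
    have := hprime x
    have := hprime y
    obtain ⟨a, ha⟩ := Algebra.IsInvariant.exists_smul_of_under_eq (𝓞 K) (𝓞 L) H
      (x⁻¹ • Q) (y⁻¹ • Q) h1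
    have ha' : y⁻¹ • Q = (a : GL) • x⁻¹ • Q := ha
    have hstab : (y * a * x⁻¹) • Q = Q := by
      rw [mul_smul, mul_smul, ← ha', smul_inv_smul]
    obtain ⟨k, hk⟩ := exists_pow_of_smul_eq hp hun hQ hpQ hφ hstab
    refine Subtype.ext (QuotientGroup.eq.mpr ?_)
    have hy : x⁻¹ * y = (x⁻¹ * φ * x) ^ k * (a : GL)⁻¹ := by
      have : (x⁻¹ * φ * x) ^ k = x⁻¹ * φ ^ k * x := by simpa using conj_pow (a := x⁻¹) (b := φ) (i := k)
      rw [this, ← hk]
      group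
    rw [hy]
    exact H.mul_mem (H.pow_mem ((hfixed x).mp hc) k) (H.inv_mem a.2)
  · rintro ⟨P, hP⟩
    have hPprime : P.IsPrime := Ideal.isPrime_of_irreducible_absNorm (hP ▸ hp.prime.irreducible)
    have hpP : (p : 𝓞 K) ∈ P := hP ▸ Ideal.absNorm_mem P
    have : Algebra.IsIntegral (𝓞 K) (𝓞 L) := Algebra.IsInvariant.isIntegral (𝓞 K) (𝓞 L) H
    have hinj : Function.Injective ι := fun a b hab =>
      RingOfIntegers.ext ((algebraMap K L).injective (congrArg (algebraMap (𝓞 L) L) hab))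
    obtain ⟨Q', -, hQ', hQ'P⟩ := Ideal.exists_ideal_over_prime_of_isIntegral P (⊥ : Ideal (𝓞 L))
      (fun a ha => by
        rw [Ideal.mem_comap, Ideal.mem_bot] at ha
        rw [hinj (ha.trans (map_zero ι).symm)]
        exact zero_mem P)
    have hpQ' : (p : 𝓞 L) ∈ Q' := by
      rw [← map_natCast ι, ← Ideal.mem_comap]
      exact hQ'P.symm ▸ hpP
    obtain ⟨g, rfl⟩ := exists_smul_eq_of_mem hp hQ hpQ hQ' hpQ'
    obtain ⟨x, rfl⟩ : ∃ x, x⁻¹ = g := ⟨g⁻¹, inv_inv g⟩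
    have := hprime x
    have := finite_quotient hp (hprime x) (hmem x)
    obtain ⟨a, ha⟩ := IsArithFrobAt.exists_of_isInvariant (R := 𝓞 K) (G := H) (x⁻¹ • Q)
    have hcard : Nat.card (𝓞 K ⧸ (x⁻¹ • Q).under (𝓞 K)) = p := by
      rw [show (x⁻¹ • Q).under (𝓞 K) = P from hQ'P]
      have h := hP
      rwa [Ideal.absNorm_apply, Submodule.cardQuot_apply] at h
    have hfroba : IsFrobMod p (a : GL) (x⁻¹ • Q) := fun b => by
      have h := ha b
      rwa [hcard] at h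
    have heq := hfroba.unique hp hun (hprime x) (hmem x) (hfrob x)
    exact ⟨⟨QuotientGroup.mk x, (hfixed x).mpr (heq ▸ a.2)⟩, Subtype.ext hQ'P⟩

end FLTAgent.Frobenius
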